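import Fermat.Agent.RedTorsion.Series
import Fermat.Agent.RedTorsion.PolesOrbits

/-!
# Roots of series congruent to one

An expansion without polar part congruent to `1` has an `m`-th root of the same kind, with
coefficients in a number field.
-/

set_option autoImplicit false

noncomputable section

open IsLocalRing ModularCurve

namespace Fermat.Agent.RedTorsion

variable {L : Type*} [Field L]

/-- The coefficients of a root of a power series lie in the field of those of the series and of
the constant term of the root. -/
theorem coeff_mem_of_pow_eq [CharZero L] (E : Subfield L) {h f : PowerSeries L} {m : ℕ}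
    (hm : m ≠ 0) (hhf : h ^ m = f) (hf : ∀ n, PowerSeries.coeff n f ∈ E)
    (h0 : PowerSeries.constantCoeff h ∈ E) (h00 : PowerSeries.constantCoeff h ≠ 0) :
    ∀ n, PowerSeries.coeff n h ∈ E := by
  intro n
  induction n using Nat.strong_induction_on with
  | _ n ih =>
    rcases eq_or_ne n 0 with rfl | hn
    · rwa [PowerSeries.coeff_zero_eq_constantCoeff]
    -- Let `T` be the truncation of `h` below `n`.
    let T' : PowerSeries E := PowerSeries.mk fun k => if hk : k < n then ⟨_, ih k hk⟩ else 0
    set T : PowerSeries L := T'.map E.subtype with hT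
    have hTk : ∀ k, PowerSeries.coeff k T = if k < n then PowerSeries.coeff k h else 0 :=
      fun k => by
      rw [hT, PowerSeries.coeff_map, PowerSeries.coeff_mk]
      split <;> simp
    obtain ⟨R, hR⟩ : (PowerSeries.X : PowerSeries L) ^ n ∣ h - T := PowerSeries.X_pow_dvd_iff.mpr
      fun k hk => by rw [map_sub, hTk, if_pos hk, sub_self]
    have hR0 : PowerSeries.constantCoeff R = PowerSeries.coeff n h := by
      have h1 := congrArg (PowerSeries.coeff n) hR
      rw [map_sub, hTk, if_neg (lt_irrefl n), sub_zero, PowerSeries.coeff_X_pow_mul',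
        if_pos le_rfl, Nat.sub_self, PowerSeries.coeff_zero_eq_constantCoeff] at h1
      exact h1.symm
    have hT0 : PowerSeries.constantCoeff T = PowerSeries.constantCoeff h := by
      rw [← PowerSeries.coeff_zero_eq_constantCoeff, hTk, if_pos (Nat.pos_of_ne_zero hn)]
    -- The `n`-th coefficient of `h ^ m - T ^ m` is `m h₀ ^ (m - 1)` times that of `h`.
    have hSm := congrArg (PowerSeries.coeff n) (geom_sum₂_mul h T m)
    rw [hR, mul_left_comm, PowerSeries.coeff_X_pow_mul', if_pos le_rfl, Nat.sub_self,
      PowerSeries.coeff_zero_eq_constantCoeff, map_mul, map_sum, map_sub, hhf, hR0] at hSm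
    have hsum : ∑ i ∈ Finset.range m,
        PowerSeries.constantCoeff (h ^ i * T ^ (m - 1 - i)) =
          m * PowerSeries.constantCoeff h ^ (m - 1) := by
      rw [Finset.sum_congr rfl fun i hi =>
        show PowerSeries.constantCoeff (h ^ i * T ^ (m - 1 - i)) =
        PowerSeries.constantCoeff h ^ (m - 1) by
          rw [map_mul, map_pow, map_pow, hT0, ← pow_add,
            Nat.add_sub_cancel' (by have := Finset.mem_range.mp hi; omega)]]
      simp
    rw [hsum] at hSm
    have hne : (m : L) * PowerSeries.constantCoeff h ^ (m - 1) ≠ 0 :=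
      mul_ne_zero (Nat.cast_ne_zero.mpr hm) (pow_ne_zero _ h00)
    have hrhs : PowerSeries.coeff n f - PowerSeries.coeff n (T ^ m) ∈ E := by
      refine sub_mem (hf n) ?_
      rw [hT, ← map_pow, PowerSeries.coeff_map]
      exact ((T' ^ m).coeff n).2
    rw [← hSm] at hrhs
    have h2 := mul_mem (inv_mem (mul_mem (natCast_mem E m) (pow_mem h0 (m - 1)))) hrhs
    rwa [← mul_assoc, inv_mul_cancel₀ hne, one_mul] at h2

variable [IsAlgClosed L] [CharZero L] [Algebra.IsAlgebraic ℚ L] {A : ValuationSubring L}

/-- An `m`-th root of a series congruent to `1`. -/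
theorem exists_root_series {m : ℕ} (hm : IsUnit (m : A)) {f : LaurentSeries L}
    (hf : f ∈ serInt A) (hord : f ∈ orderNonneg L) (hred : serRed A ⟨f, hf⟩ = 1)
    (hfin : f ∈ finCoeff L) :
    ∃ h : LaurentSeries L, h ^ m = f ∧ h ≠ 0 ∧ h⁻¹ ∈ serInt A ∧ h ∈ finCoeff L ∧
      ∃ hh : h ∈ serInt A, serRed A ⟨h, hh⟩ = 1 := by
  have hm0 : m ≠ 0 := by rintro rfl; simp at hm
  let p : PowerSeries A := PowerSeries.mk fun n => ⟨f.coeff n, mem_serInt.mp hf n⟩
  let e : PowerSeries A →+* LaurentSeries L :=
    (coeffMap A.subtype).comp (HahnSeries.ofPowerSeries ℤ A)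
  have hcoeff : ∀ (g : PowerSeries A) (n : ℕ), (e g).coeff n = (PowerSeries.coeff n g : A) := by
    intro g n
    show (coeffMap A.subtype (HahnSeries.ofPowerSeries ℤ A g)).coeff (n : ℤ) = _
    rw [coeffMap_coeff, HahnSeries.ofPowerSeries_apply_coeff]
    rfl
  have hneg : ∀ (g : PowerSeries A) (k : ℤ), k < 0 → (e g).coeff k = 0 := by
    intro g k hk
    show (coeffMap A.subtype (HahnSeries.ofPowerSeries ℤ A g)).coeff k = _
    rw [coeffMap_coeff, ofPowerSeries_coeff_of_neg _ hk, map_zero]
  have hp : e p = f := by
    ext k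
    rcases le_or_gt 0 k with hk | hk
    · lift k to ℕ using hk
      rw [hcoeff, PowerSeries.coeff_mk]
    · rw [hneg p k hk, hord k hk]
  have hrede : ∀ g : PowerSeries A, serRed A ⟨e g, ⟨_, rfl⟩⟩ =
      HahnSeries.ofPowerSeries ℤ (ResidueField A) (g.map (residue A)) := fun g => by
    rw [← coeffMap_ofPowerSeries]
    exact serRed_coeffMap _ _
  have hp1 : residue A (PowerSeries.constantCoeff p) = 1 := by
    have h1 := congrArg (fun s : LaurentSeries (ResidueField A) => s.coeff 0) hred
    simp only [coeff_serRed, HahnSeries.coeff_one, if_true] at h1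
    rw [← PowerSeries.coeff_zero_eq_constantCoeff, PowerSeries.coeff_mk]
    exact h1
  -- The power series root `g` over `A` has coefficients in the field of those of `f` and its
  -- constant term; its reduction is `1`, being an `m`-th root of `1` with constant term `1`.
  obtain ⟨g, hg, hg1⟩ := exists_root_powerSeries hm p hp1
  have hgu : IsUnit g := PowerSeries.isUnit_iff_constantCoeff.mpr
    ((residue_ne_zero_iff_isUnit _).mp (by rw [hg1]; exact one_ne_zero))
  obtain ⟨gi, hgi⟩ := isUnit_iff_exists_inv.mp hgu
  have hh0 : e g ≠ 0 := fun h0 => by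
    have := congrArg e hgi
    rw [map_mul, h0, zero_mul, map_one] at this
    exact zero_ne_one this
  have hinv : (e g)⁻¹ = e gi := inv_eq_of_mul_eq_one_right (by rw [← map_mul, hgi, map_one])
  refine ⟨e g, by rw [← map_pow, hg, hp], hh0, hinv ▸ ⟨_, rfl⟩, ?_, ⟨_, rfl⟩, ?_⟩
  · obtain ⟨E, hE, hEc⟩ := mem_finCoeff.mp hfin
    set c : L := ((PowerSeries.constantCoeff g : A) : L) with hc
    have := hE
    have : FiniteDimensional ℚ (IntermediateField.adjoin ℚ {c}) :=
      IntermediateField.adjoin.finiteDimensional (Algebra.IsAlgebraic.isAlgebraic c).isIntegral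
    set E' := E ⊔ IntermediateField.adjoin ℚ {c}
    have hc0 : c ≠ 0 := fun h0 => by
      rw [show PowerSeries.constantCoeff g = 0 from Subtype.ext h0, map_zero] at hg1
      exact zero_ne_one hg1
    have key := coeff_mem_of_pow_eq E'.toSubfield (h := g.map A.subtype) (f := p.map A.subtype) hm0
      (by rw [← map_pow, hg])
      (fun n => by
        rw [PowerSeries.coeff_map, PowerSeries.coeff_mk]
        exact (le_sup_left : E ≤ E') (hEc n))
      (by
        rw [← PowerSeries.coeff_zero_eq_constantCoeff, PowerSeries.coeff_map,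
          PowerSeries.coeff_zero_eq_constantCoeff]
        exact (le_sup_right : _ ≤ E') (IntermediateField.mem_adjoin_simple_self ℚ c))
      (by
        rw [← PowerSeries.coeff_zero_eq_constantCoeff, PowerSeries.coeff_map,
          PowerSeries.coeff_zero_eq_constantCoeff]
        exact hc0)
    refine mem_finCoeff.mpr ⟨E', inferInstance, fun k => ?_⟩
    rcases le_or_gt 0 k with hk | hk
    · lift k to ℕ using hk
      have := key k
      rw [PowerSeries.coeff_map] at this
      rw [hcoeff]
      exact this
    · rw [hneg g k hk]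
      exact zero_mem _
  · have hm' : (m : ResidueField A) ≠ 0 := by
      rw [← map_natCast (residue A)]; exact (residue_ne_zero_iff_isUnit _).mpr hm
    rw [hrede]
    set gb : PowerSeries (ResidueField A) := g.map (residue A) with hgb
    have hpow : gb ^ m = 1 := by
      refine HahnSeries.ofPowerSeries_injective (Γ := ℤ) ?_
      rw [hgb, ← map_pow, hg, ← hrede, map_one]
      exact (congrArg (serRed A) (Subtype.ext hp)).trans hred
    have hgb0 : PowerSeries.constantCoeff gb = 1 := by
      rw [← PowerSeries.coeff_zero_eq_constantCoeff, hgb, PowerSeries.coeff_map,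
        PowerSeries.coeff_zero_eq_constantCoeff, hg1]
    have hS : PowerSeries.constantCoeff (∑ i ∈ Finset.range m, gb ^ i) ≠ 0 := by
      simpa [map_sum, hgb0] using hm'
    have := geom_sum_mul gb m
    rw [hpow, sub_self, mul_eq_zero, sub_eq_zero] at this
    rw [this.resolve_left (fun h0 => hS (by rw [h0, map_zero])), map_one]

end Fermat.Agent.RedTorsion

end
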