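import Fermat.Agent.RedTorsion.Series
import Fermat.Agent.EichlerShimura.Gauss

/-!
# Twisting spaces of series by a root congruent to one

If `h` is a unit series congruent to `1` whose `m`-th power maps a space `V` into a space `U` of
bounded series, the reduction of `h·V + L` stays inside the reduced field; comparing two such
spaces shows that `1/h` lies in `V`.
-/

set_option autoImplicit false

noncomputable section

open IsLocalRing

namespace Fermat.Agent.RedTorsion

attribute [local instance 10000] serModule serSMul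

variable {L : Type*} [Field L] [CharZero L] {A : ValuationSubring L} {q : ℕ}

/-- The space `h·V + L`. -/
def twist (h : LaurentSeries L) (V : Submodule L (LaurentSeries L)) :
    Submodule L (LaurentSeries L) :=
  V.map (LinearMap.mulLeft L h) ⊔ Submodule.span L {1}

omit [CharZero L] in
/-- The elements of `twist h V` are the `h y + b` with `y` in `V` and `b` constant. -/
theorem mem_twist {h : LaurentSeries L} {V : Submodule L (LaurentSeries L)} {w : LaurentSeries L} :
    w ∈ twist h V ↔ ∃ y ∈ V, ∃ b : L, w = h * y + algebraMap L _ b := by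
  simp only [twist, Submodule.mem_sup, Submodule.mem_span_singleton, Submodule.mem_map,
    LinearMap.mulLeft_apply]
  constructor
  · rintro ⟨_, ⟨y, hy, rfl⟩, _, ⟨b, rfl⟩, rfl⟩
    exact ⟨y, hy, b, by rw [Algebra.smul_def, mul_one]⟩
  · rintro ⟨y, hy, b, rfl⟩
    exact ⟨_, ⟨y, hy, rfl⟩, _, ⟨b, rfl⟩, by rw [Algebra.smul_def, mul_one]⟩

omit [CharZero L] in
theorem twist_mono {h : LaurentSeries L} {V V' : Submodule L (LaurentSeries L)} (hV : V ≤ V') :
    twist h V ≤ twist h V' :=
  sup_le_sup (Submodule.map_mono hV) le_rfl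

omit [CharZero L] in
theorem finiteDimensional_twist (h : LaurentSeries L) (V : Submodule L (LaurentSeries L))
    [FiniteDimensional L V] : FiniteDimensional L (twist h V) :=
  Submodule.finiteDimensional_sup _ _

omit [CharZero L] in
theorem finrank_twist {h : LaurentSeries L} (hh : h ≠ 0) {V : Submodule L (LaurentSeries L)}
    [FiniteDimensional L V] (h1 : ∀ y ∈ V, h * y ≠ 1) :
    Module.finrank L (twist h V) = Module.finrank L V + 1 := by
  have e := Submodule.equivMapOfInjective (LinearMap.mulLeft L h) (mul_right_injective₀ hh) V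
  have hfd : FiniteDimensional L (V.map (LinearMap.mulLeft L h)) := e.finiteDimensional
  have hdisj : Disjoint (V.map (LinearMap.mulLeft L h))
      (Submodule.span L {(1 : LaurentSeries L)}) := by
    rw [Submodule.disjoint_span_singleton' one_ne_zero]
    rintro ⟨y, hy, he⟩
    exact h1 y hy he
  have h2 := Submodule.finrank_sup_add_finrank_inf_eq (V.map (LinearMap.mulLeft L h))
    (Submodule.span L {(1 : LaurentSeries L)})
  rw [hdisj.eq_bot, finrank_bot, finrank_span_singleton one_ne_zero, ← e.finrank_eq, add_zero] at h2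
  exact h2

theorem isScalable_twist [Algebra.IsAlgebraic ℚ L] (hA : A.LiesOverPrime q) (hq : q.Prime)
    {h : LaurentSeries L} (hh : h ∈ serInt A) (hhfin : h ∈ finCoeff L) {m : ℕ} (hm : m ≠ 0)
    {U V : Submodule L (LaurentSeries L)} (hU : ∀ u ∈ U, u ∈ serBdd A)
    (hUV : ∀ y ∈ V, (h * y) ^ m ∈ U) (hfin : ∀ y ∈ V, y ∈ finCoeff L)
    (hden : ∀ y ∈ V, ∃ d ∈ serBdd A, d ≠ 0 ∧ d * y ∈ serBdd A) :
    ∀ w ∈ twist h V, w ≠ 0 → IsScalable A w := by
  intro w hw hw0
  obtain ⟨y, hy, b, rfl⟩ := mem_twist.mp hw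
  refine isScalable_of_bdd hA hq (add_mem ?_ (algebraMap_mem_serBdd b))
    (add_mem (mul_mem hhfin (hfin y hy)) (algebraMap_mem_finCoeff b)) hw0
  obtain ⟨d, hd, hd0, hdy⟩ := hden y hy
  refine mem_serBdd_of_monic_rel hA hq hd hd0 ?_ (D := m)
    (a := fun i => if i = 0 then -((h * y) ^ m) else 0) (fun i _ => ?_) ?_
  · rw [mul_left_comm]
    exact mul_mem (serInt_le_serBdd hh) hdy
  · split_ifs
    · exact neg_mem (hU _ (hUV y hy))
    · exact zero_mem _
  · simp only [ite_mul, zero_mul, Finset.sum_ite_eq', Finset.mem_range, Nat.pos_of_ne_zero hm,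
      if_true, pow_zero, mul_one, add_neg_cancel]

variable {h : LaurentSeries L} (hh : h ∈ serInt A) (hhi : h⁻¹ ∈ serInt A)
  (hred : serRed A ⟨h, hh⟩ = 1) {m : ℕ}

omit [CharZero L] in
include hred in
theorem serRed_mul_root {y : LaurentSeries L} (hy : y ∈ serInt A) :
    serRed A ⟨h * y, mul_mem hh hy⟩ = serRed A ⟨y, hy⟩ := by
  rw [show (⟨h * y, mul_mem hh hy⟩ : serInt A) = ⟨h, hh⟩ * ⟨y, hy⟩ from rfl, map_mul, hred, one_mul]

omit [CharZero L] in
include hhi hred in
/-- The reduction of `h·V + L` lies in `Y`. -/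
theorem redSpace_twist_le (hm : IsUnit (m : A)) (hh0 : h ≠ 0)
    {U V : Submodule L (LaurentSeries L)} (hU1 : 1 ∈ U) (hUV : ∀ y ∈ V, (h * y) ^ m ∈ U)
    {X Y : Submodule (ResidueField A) (LaurentSeries (ResidueField A))}
    (hX : redSpace A V ≤ X) (hX1 : 1 ∈ X) (hXY : X ≤ Y) (hY : redSpace A U ≤ Y) :
    redSpace A (twist h V) ≤ Y := by
  rintro _ ⟨w, hw, rfl⟩
  obtain ⟨y, hy, b, hwe⟩ := mem_twist.mp hw
  by_cases hb : b ∈ A
  · -- both summands are integral
    have hhy : h * y ∈ serInt A := by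
      have := sub_mem w.2 (algebraMap_mem_serInt (A := A) hb)
      rwa [hwe, add_sub_cancel_right] at this
    have hy' : y ∈ serInt A := by
      have := mul_mem hhi hhy
      rwa [← mul_assoc, inv_mul_cancel₀ hh0, one_mul] at this
    refine hXY ?_
    have he : w = ⟨h * y, hhy⟩ + ⟨_, algebraMap_mem_serInt hb⟩ := Subtype.ext hwe
    rw [he, map_add, serRed_mul_root hh hred hy', serRed_algebraMap hb]
    refine add_mem (hX (serRed_mem_redSpace ⟨y, hy'⟩ hy)) ?_
    have := X.smul_mem (residue A ⟨b, hb⟩) hX1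
    rwa [Algebra.smul_def, mul_one] at this
  · -- the summands cancel
    have hb0 : b ≠ 0 := fun e => hb (e ▸ zero_mem A)
    have hc : -b⁻¹ ∈ A := neg_mem ((A.mem_or_inv_mem b).resolve_left hb)
    have hcm : residue A ⟨-b⁻¹, hc⟩ = 0 := by
      rw [EichlerShimura.residue_eq_zero_iff_inv (by simpa using hb0)]
      show (-b⁻¹)⁻¹ ∉ A
      rw [inv_neg, inv_inv]
      exact fun h' => hb (by simpa using neg_mem h')
    set t : serInt A := ⟨_, algebraMap_mem_serInt hc⟩ * w with ht
    set u : serInt A := 1 + t with hu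
    have hu1 : (u : LaurentSeries L) = h * ((-b⁻¹) • y) := by
      show (1 : LaurentSeries L) + algebraMap L _ (-b⁻¹) * w = _
      rw [hwe, Algebra.smul_def, mul_add, ← map_mul, neg_mul, inv_mul_cancel₀ hb0, map_neg, map_neg,
        map_one]
      ring
    have hured : serRed A u = 1 := by
      rw [hu, ht, map_add, map_one, map_mul, serRed_algebraMap hc, hcm, map_zero,
        zero_mul, add_zero]
    set S : serInt A := ∑ i ∈ Finset.range m, u ^ i with hS
    have hSred : serRed A S = (m : LaurentSeries (ResidueField A)) := by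
      simp [hS, map_sum, hured]
    have hmem : ((w * S : serInt A) : LaurentSeries L) ∈ U := by
      have h1 : (u : LaurentSeries L) ^ m ∈ U := hu1 ▸ hUV _ (V.smul_mem _ hy)
      have h2 : (w * S : serInt A).1 = (-b) • ((u : LaurentSeries L) ^ m - 1) := by
        have h3 : (S : LaurentSeries L) * ((u : LaurentSeries L) - 1) =
            (u : LaurentSeries L) ^ m - 1 := by
          rw [hS, AddSubmonoidClass.coe_finsetSum]
          simp only [SubmonoidClass.coe_pow]
          exact geom_sum_mul _ _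
        have h4 : (u : LaurentSeries L) - 1 = algebraMap L _ (-b⁻¹) * w := add_sub_cancel_left _ _
        rw [← h3, h4, Algebra.smul_def, mul_left_comm (S : LaurentSeries L), ← mul_assoc, ← map_mul,
          neg_mul_neg, mul_inv_cancel₀ hb0, map_one, one_mul, mul_comm]
        rfl
      rw [show ((w * S : serInt A) : LaurentSeries L) = _ from h2]
      exact U.smul_mem _ (U.sub_mem h1 hU1)
    have h5 := hY (serRed_mem_redSpace _ hmem)
    rw [map_mul, hSred] at h5
    have hm' : (m : ResidueField A) ≠ 0 := by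
      rw [← map_natCast (residue A)]
      exact (residue_ne_zero_iff_isUnit _).mpr hm
    have h6 := Y.smul_mem (m : ResidueField A)⁻¹ h5
    rwa [Algebra.smul_def, ← map_natCast
      (algebraMap (ResidueField A) (LaurentSeries (ResidueField A))),
      mul_left_comm, ← map_mul, inv_mul_cancel₀ hm', map_one, mul_one] at h6

omit [CharZero L] in
include hred in
theorem le_redSpace_twist {V : Submodule L (LaurentSeries L)} :
    redSpace A V ≤ redSpace A (twist h V) := by
  rintro _ ⟨y, hy, rfl⟩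
  refine ⟨⟨h * y, mul_mem hh y.2⟩, mem_twist.mpr ⟨y, hy, 0, by rw [map_zero, add_zero]⟩, ?_⟩
  exact serRed_mul_root hh hred y.2

include hhi hred in
/-- Two twisted spaces with separated reductions force `1/h ∈ V₁₂`. -/
theorem exists_mul_root_eq_one [Algebra.IsAlgebraic ℚ L] (hA : A.LiesOverPrime q) (hq : q.Prime)
    (hm : IsUnit (m : A)) (hh0 : h ≠ 0) (hhfin : h ∈ finCoeff L)
    {V₁ V₂ V U₁ U₂ U : Submodule L (LaurentSeries L)} [FiniteDimensional L V₁]
    [FiniteDimensional L V₂] [FiniteDimensional L V] (hV₁ : V₁ ≤ V) (hV₂ : V₂ ≤ V) (hU₁1 : 1 ∈ U₁)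
    (hU₂1 : 1 ∈ U₂) (hUV₁ : ∀ y ∈ V₁, (h * y) ^ m ∈ U₁) (hUV₂ : ∀ y ∈ V₂, (h * y) ^ m ∈ U₂)
    (hUV : ∀ y ∈ V, (h * y) ^ m ∈ U) (hU : ∀ u ∈ U, u ∈ serBdd A) (hfin : ∀ y ∈ V, y ∈ finCoeff L)
    (hden : ∀ y ∈ V, ∃ d ∈ serBdd A, d ≠ 0 ∧ d * y ∈ serBdd A)
    {X₁ X₂ X Y₁ Y₂ : Submodule (ResidueField A) (LaurentSeries (ResidueField A))}
    [FiniteDimensional (ResidueField A) X₁] [FiniteDimensional (ResidueField A) X₂]
    [FiniteDimensional (ResidueField A) X] (hX₁ : redSpace A V₁ ≤ X₁) (hX₂ : redSpace A V₂ ≤ X₂)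
    (hX : redSpace A V = X) (hd₁ : Module.finrank (ResidueField A) X₁ ≤ Module.finrank L V₁)
    (hd₂ : Module.finrank (ResidueField A) X₂ ≤ Module.finrank L V₂)
    (hd : Module.finrank L V ≤ Module.finrank (ResidueField A) X) (h1₁ : 1 ∈ X₁) (h1₂ : 1 ∈ X₂)
    (hXY₁ : X₁ ≤ Y₁) (hXY₂ : X₂ ≤ Y₂) (hY₁ : redSpace A U₁ ≤ Y₁) (hY₂ : redSpace A U₂ ≤ Y₂)
    (hsep₁ : Y₁ ⊓ (X ⊔ Y₂) ≤ X₁) (hsep₂ : Y₂ ⊓ X ≤ X₂) :
    ∃ y ∈ V, h * y = 1 := by
  by_contra! hno
  have hm0 : m ≠ 0 := by rintro rfl; simp at hm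
  have hsc := isScalable_twist hA hq hh hhfin hm0 hU hUV hfin hden
  have hdim : ∀ (W : Submodule L (LaurentSeries L)) [FiniteDimensional L W], W ≤ V →
      FiniteDimensional (ResidueField A) (redSpace A (twist h W)) ∧
      Module.finrank (ResidueField A) (redSpace A (twist h W)) = Module.finrank L W + 1 := by
    intro W _ hW
    have := finiteDimensional_twist h W
    exact finrank_redSpace _ _ (finrank_twist hh0 fun y hy => hno y (hW hy))
      fun w hw => hsc w (twist_mono hW hw)
  -- a new element from each of the two spaces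
  have hnew : ∀ (W : Submodule L (LaurentSeries L)) [FiniteDimensional L W], W ≤ V →
      ∀ (XW : Submodule (ResidueField A) (LaurentSeries (ResidueField A)))
      [FiniteDimensional (ResidueField A) XW],
      Module.finrank (ResidueField A) XW ≤ Module.finrank L W →
        ∃ z ∈ redSpace A (twist h W), z ∉ XW := by
    intro W _ hW XW _ hle
    by_contra! hall
    have := Submodule.finrank_mono (show redSpace A (twist h W) ≤ XW from hall)
    rw [(hdim W hW).2] at this
    omega
  obtain ⟨z, hz, hz1⟩ := hnew V₁ hV₁ X₁ hd₁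
  obtain ⟨z', hz', hz2⟩ := hnew V₂ hV₂ X₂ hd₂
  have hzY : z ∈ Y₁ := redSpace_twist_le hh hhi hred hm hh0 hU₁1 hUV₁ hX₁ h1₁ hXY₁ hY₁ hz
  have hzY' : z' ∈ Y₂ := redSpace_twist_le hh hhi hred hm hh0 hU₂1 hUV₂ hX₂ h1₂ hXY₂ hY₂ hz'
  obtain ⟨hfd, hfr⟩ := hdim V le_rfl
  have := hfd
  have hzX : z ∉ X := fun e => hz1 (hsep₁ ⟨hzY, Submodule.mem_sup_left e⟩)
  have heq : X ⊔ Submodule.span (ResidueField A) {z} = redSpace A (twist h V) := by
    refine Submodule.eq_of_le_of_finrank_le (sup_le (hX ▸ le_redSpace_twist hh hred)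
      ((Submodule.span_singleton_le_iff_mem _ _).mpr (redSpace_mono (twist_mono hV₁) hz))) ?_
    have hz0 : z ≠ 0 := fun e => hzX (e ▸ X.zero_mem)
    have h2 := Submodule.finrank_sup_add_finrank_inf_eq X (Submodule.span (ResidueField A) {z})
    have hdisj : Disjoint X (Submodule.span (ResidueField A) {z}) := by
      rw [Submodule.disjoint_span_singleton' hz0]; exact hzX
    rw [hdisj.eq_bot, finrank_bot, finrank_span_singleton hz0] at h2
    omega
  obtain ⟨u, hu, v, hv, huv⟩ :=
    Submodule.mem_sup.mp (heq.symm ▸ redSpace_mono (twist_mono hV₂) hz' :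
    z' ∈ X ⊔ Submodule.span (ResidueField A) {z})
  obtain ⟨a, rfl⟩ := Submodule.mem_span_singleton.mp hv
  rcases eq_or_ne a 0 with rfl | ha
  · rw [Algebra.smul_def, map_zero, zero_mul, add_zero] at huv
    exact hz2 (hsep₂ ⟨hzY', huv ▸ hu⟩)
  · have h3 : a • z ∈ X₁ := hsep₁ ⟨Y₁.smul_mem a hzY, by
      rw [show a • z = -u + z' by rw [← huv]; abel]
      exact Submodule.add_mem_sup (X.neg_mem hu) hzY'⟩
    have h4 := X₁.smul_mem a⁻¹ h3
    rw [ser_smul_smul, inv_mul_cancel₀ ha, ser_one_smul] at h4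
    exact hz1 h4

end Fermat.Agent.RedTorsion

end
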