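import Fermat.Agent.RedTorsion.FiniteDisc
import Fermat.Agent.RedTorsion.RootSeries
import Fermat.Agent.RedTorsion.TwistRed
import Fermat.Agent.EichlerShimura.Specialization

/-!
# Reduction is injective on torsion prime to the residue characteristic

`EichlerShimura.injectiveOnTorsion`, which is S18, proves the proposition `InjectiveOnTorsion`
stated in `EichlerShimura/Specialization`:

1. If `m D = div f` with `f ≡ 1` and `D` reducing to zero, `f` has an `m`-th root `h ≡ 1`.
2. Multiplication by `h` takes the Riemann–Roch spaces of `E + D` into spaces reducing like those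
   of `E`.
3. The twist lemma then puts `1/h` in the function field, so `D` is principal.

The auxiliary declarations of this file and of `RedTorsion/FiniteDisc` are in the namespace
`FiniteFlat.Torsion`.
-/

set_option autoImplicit false

noncomputable section

open IsLocalRing AlgebraicCurve ModularCurve
open Fermat.Agent.Arith Fermat.Agent.FF Fermat.Agent.RedTorsion
open Fermat.Agent.EichlerShimura (hFb)
open scoped Classical

attribute [local instance 10000] SubalgebraClass.toAlgebra HahnSeries.powerSeriesAlgebra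
  Algebra.id
attribute [-instance] RingHom.Finite.instFinite
attribute [-instance] IsScalarTower.of_algHom

namespace Fermat.Agent.FiniteFlat.Torsion

attribute [local instance 10000] serModule serSMul

variable {A : ValuationSubring QBar} {N : ℕ} [NeZero N] (hNA : (N : ResidueField A) ≠ 0)
  [IsFunctionField QBar (modularFunctionFieldBar N)]
  [IsFunctionField (ResidueField A) (modularFunctionFieldFullC (ResidueField A) N)]

local notation "Fb" => modularFunctionFieldBar N
local notation "Fk" => modularFunctionFieldFullC (ResidueField A) N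
local notation "jk" => jF (K := ResidueField A) (N := N)
  (F := modularFunctionFieldFullC (ResidueField A) N) rfl
local notation "gR" => goodRed (N := N) (A := A) hNA

/-! ### Expansions of Riemann–Roch spaces -/

/-- The expansion map, linear for the module structure of the algebra. -/
def expLin (K : Type*) [Field K] (E : IntermediateField K (LaurentSeries K)) :
    E →ₗ[K] LaurentSeries K :=
  E.val.toLinearMap

theorem expLin_injective (K : Type*) [Field K] (E : IntermediateField K (LaurentSeries K)) :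
    Function.Injective (expLin K E) := Subtype.val_injective

/-- The expansions of a Riemann–Roch space in characteristic zero. -/
def serL (D : Divisor QBar Fb) : Submodule QBar (LaurentSeries QBar) :=
  (riemannRochSpace D).map (expLin QBar Fb)

/-- The expansions of a Riemann–Roch space of the reduced curve. -/
def serLk (D : Divisor (ResidueField A) Fk) :
    Submodule (ResidueField A) (LaurentSeries (ResidueField A)) :=
  (riemannRochSpace D).map (expLin (ResidueField A) Fk)

instance (D : Divisor QBar Fb) : FiniteDimensional QBar (serL D) :=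
  Module.Finite.map _ _

instance (D : Divisor (ResidueField A) Fk) : FiniteDimensional (ResidueField A) (serLk D) :=
  Module.Finite.map _ _

omit [NeZero N] [IsFunctionField QBar ↥Fb] in
theorem mem_serL {D : Divisor QBar Fb} {y : LaurentSeries QBar} :
    y ∈ serL D ↔ ∃ f ∈ riemannRochSpace D, (f : LaurentSeries QBar) = y := Iff.rfl

omit [NeZero N] [IsFunctionField QBar ↥Fb]
  [IsFunctionField (ResidueField ↥A) ↥(modularFunctionFieldFullC (ResidueField ↥A) N)] in
theorem mem_serLk {D : Divisor (ResidueField A) Fk} {y : LaurentSeries (ResidueField A)} :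
    y ∈ serLk D ↔ ∃ f ∈ riemannRochSpace D, (f : LaurentSeries (ResidueField A)) = y := Iff.rfl

omit [NeZero N] [IsFunctionField QBar ↥Fb] in
theorem finrank_serL (D : Divisor QBar Fb) :
    Module.finrank QBar (serL D) = Module.finrank QBar (riemannRochSpace D) :=
  ((Submodule.equivMapOfInjective (expLin QBar Fb) (expLin_injective QBar Fb)
    (riemannRochSpace D)).finrank_eq).symm

omit [NeZero N] [IsFunctionField QBar ↥Fb]
  [IsFunctionField (ResidueField ↥A) ↥(modularFunctionFieldFullC (ResidueField ↥A) N)] in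
theorem finrank_serLk (D : Divisor (ResidueField A) Fk) :
    Module.finrank (ResidueField A) (serLk D) =
      Module.finrank (ResidueField A) (riemannRochSpace D) :=
  ((Submodule.equivMapOfInjective (expLin (ResidueField A) Fk)
    (expLin_injective (ResidueField A) Fk) (riemannRochSpace D)).finrank_eq).symm

include hNA in
/-- Reductions of integral expansions lie in the reduced space. -/
theorem redSpace_serL_le {D : Divisor QBar Fb} (hdeg : bigDeg gR ≤ Divisor.degree D) :
    redSpace A (serL D) ≤ serLk (redDiv gR D) := by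
  rintro _ ⟨s, hs, rfl⟩
  obtain ⟨y, hyD, hys⟩ := mem_serL.mp hs
  obtain ⟨s', hs'⟩ := s.2
  have hmem : coeffMap A.subtype s' ∈ Fb := by rw [hs', ← hys]; exact y.2
  obtain ⟨hm, hr⟩ := seriesCompat hNA s' hmem
  have e : (⟨_, hmem⟩ : Fb) = y := Subtype.ext (hs'.trans hys.symm)
  refine mem_serLk.mpr ⟨redF (gR).toRedLattice ⟨_, hm⟩, ?_, ?_⟩
  · rw [← redW_riemannRochSpace gR hdeg]
    refine redF_mem_redW _ _ ?_
    show (⟨_, hmem⟩ : Fb) ∈ _
    rw [e]; exact hyD
  · rw [hr, ← serRed_coeffMap s' ⟨s', rfl⟩]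
    exact congrArg _ (Subtype.ext hs')

include hNA in
theorem ell_eq_ell_redDiv {D : Divisor QBar Fb} (hdeg : bigDeg gR ≤ Divisor.degree D) :
    Module.finrank (ResidueField A) (serLk (redDiv gR D)) = Module.finrank QBar (serL D) := by
  rw [finrank_serL, finrank_serLk]
  have hb := rrBound_lt_bigDeg gR
  have e1 := ell_eq_of_rrBound_le gR (D := D) (by omega)
  have e2 := ell_eq_of_rrBound_le' gR (D := redDiv gR D) (by rw [degree_redDiv]; omega)
  rw [genusFF_residue_eq hNA, degree_redDiv, ← e1] at e2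
  unfold ell at e2
  exact_mod_cast e2

/-! ### Normalised functions and auxiliary places -/

include hNA in
/-- A function whose divisor is `m` times one reducing to zero has a multiple reducing to `1`. -/
private theorem exists_normalised {q : ℕ} (hA : A.LiesOverPrime q) (hq : q.Prime) {m : ℕ}
    {D : Divisor QBar Fb} (hred : redDiv gR D = 0) {f₀ : Fb} (hf₀ : f₀ ≠ 0)
    (hfD' : ∀ v, v.ord f₀ = (m : ℤ) * D v) (hf₀b : (f₀ : LaurentSeries QBar) ∈ serBdd A) :
    ∃ f : Fb, (∀ v, v.ord f = (m : ℤ) * D v) ∧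
      ∃ hfint : (f : LaurentSeries QBar) ∈ serInt A, serRed A ⟨_, hfint⟩ = 1 := by
  -- Scale `f₀` to an integral series `s` with nonzero reduction.
  obtain ⟨a, ha, s, hs, hfs⟩ := isScalable_of_bdd hA hq hf₀b (mem_finCoeff_full hFb f₀.2)
    (fun e => hf₀ (Subtype.ext e))
  set g : Fb := a⁻¹ • f₀ with hg
  have hgs : (g : LaurentSeries QBar) = s := by
    rw [hg, IntermediateField.coe_smul, hfs, ser_smul_smul, inv_mul_cancel₀ ha, ser_one_smul]
  have hgord : ∀ v, v.ord g = (m : ℤ) * D v := fun v => by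
    rw [hg, Algebra.smul_def, v.ord_mul ((_root_.map_ne_zero _).mpr (inv_ne_zero ha)) hf₀,
      FF.ord_algebraMap, zero_add, hfD']
  obtain ⟨s', hs'⟩ := s.2
  have hmem : coeffMap A.subtype s' ∈ Fb := by rw [hs', ← hgs]; exact g.2
  obtain ⟨hmS, hr⟩ := seriesCompat hNA s' hmem
  have eg : (⟨_, hmem⟩ : Fb) = g := Subtype.ext (hs'.trans hgs.symm)
  set z := redF (gR).toRedLattice ⟨_, hmS⟩ with hzdef
  have hz : (z : LaurentSeries (ResidueField A)) = serRed A s := by
    rw [hr, ← serRed_coeffMap s' ⟨s', rfl⟩]; exact congrArg _ (Subtype.ext hs')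
  have hz0 : z ≠ 0 := fun e => hs (by rw [← hz, e, ZeroMemClass.coe_zero])
  -- The reduction has divisor zero, hence is a constant `κ`.
  have hzd : div (ResidueField A) z = 0 := by
    rw [hzdef, ← redDiv_div gR _ hz0]
    have : div QBar (((⟨_, hmS⟩ : (gR).S) : Fb)) = (m : ℤ) • D := Finsupp.ext fun v => by
      show v.ord (⟨_, hmem⟩ : Fb) = _
      rw [eg, hgord, Finsupp.smul_apply, smul_eq_mul]
    rw [this, map_zsmul, hred, smul_zero]
  obtain ⟨κ, hκ⟩ := eq_algebraMap_of_ord_nonneg (K := ResidueField A) (f := z) fun v => by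
    have := DFunLike.congr_fun hzd v
    rw [div_apply] at this
    simp [this]
  have hκ0 : κ ≠ 0 := fun e => hz0 (by rw [hκ, e, map_zero])
  -- Divide by a lift of `κ`.
  obtain ⟨α, hα⟩ := residue_surjective κ⁻¹
  have hα0 : (α : QBar) ≠ 0 := fun e => inv_ne_zero hκ0 (by
    rw [← hα, show α = 0 from Subtype.ext e, map_zero])
  set f : Fb := (α : QBar) • g with hfdef
  have hford : ∀ v, v.ord f = (m : ℤ) * D v := fun v => by
    have hg0 : g ≠ 0 := by
      rw [hg, Algebra.smul_def]
      exact mul_ne_zero ((_root_.map_ne_zero _).mpr (inv_ne_zero ha)) hf₀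
    rw [hfdef, Algebra.smul_def, v.ord_mul ((_root_.map_ne_zero _).mpr hα0) hg0,
      FF.ord_algebraMap, zero_add, hgord]
  have hfeq : (f : LaurentSeries QBar) = (α : QBar) • (s : LaurentSeries QBar) := by
    rw [hfdef, IntermediateField.coe_smul, hgs]
  have hfint : (f : LaurentSeries QBar) ∈ serInt A := hfeq ▸ smul_mem_serInt α.2 s.2
  have hfred : serRed A ⟨_, hfint⟩ = 1 := by
    refine ((congrArg (serRed A) (Subtype.ext hfeq)).trans (serRed_smul α.2 s)).trans ?_
    rw [← hz, hκ, IntermediateField.coe_algebraMap_apply, Algebra.smul_def, hα, ← map_mul,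
      inv_mul_cancel₀ hκ0, map_one]
  exact ⟨f, hford, hfint, hfred⟩

omit [NeZero N] [IsFunctionField QBar ↥Fb] in
/-- Constants are in the spaces of effective divisors. -/
private theorem one_mem_serL {E : Divisor QBar Fb} (hE : 0 ≤ E) :
    (1 : LaurentSeries QBar) ∈ serL E :=
  mem_serL.mpr ⟨1, mem_riemannRochSpace'.mpr fun v => mem_ordGe_of_le v (by
    have := Finsupp.le_def.mp hE v
    rw [Finsupp.coe_zero, Pi.zero_apply] at this
    rw [v.ord_one]; omega), rfl⟩

omit [NeZero N] [IsFunctionField QBar ↥Fb]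
  [IsFunctionField (ResidueField ↥A) ↥(modularFunctionFieldFullC (ResidueField ↥A) N)] in
/-- Constants are in the reduced spaces of effective divisors. -/
private theorem one_mem_serLk {E : Divisor (ResidueField A) Fk} (hE : 0 ≤ E) :
    (1 : LaurentSeries (ResidueField A)) ∈ serLk E :=
  mem_serLk.mpr ⟨1, mem_riemannRochSpace'.mpr fun v => mem_ordGe_of_le v (by
    have := Finsupp.le_def.mp hE v
    rw [Finsupp.coe_zero, Pi.zero_apply] at this
    rw [v.ord_one]; omega), rfl⟩

omit [NeZero N] [IsFunctionField QBar ↥Fb]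
  [IsFunctionField (ResidueField ↥A) ↥(modularFunctionFieldFullC (ResidueField ↥A) N)] in
/-- Reduced spaces at two different places meet in the smaller one. -/
private theorem serLk_inf_le {n m : ℕ} {Q Q' : Place (ResidueField A) Fk} (hQ : Q ≠ Q')
    {W : Submodule (ResidueField A) (LaurentSeries (ResidueField A))}
    (hW : W ≤ serLk (Finsupp.single Q (n : ℤ) + (m : ℤ) • Finsupp.single Q' (n : ℤ))) :
    serLk ((m : ℤ) • Finsupp.single Q (n : ℤ)) ⊓ W ≤ serLk (Finsupp.single Q (n : ℤ)) := by
  rintro x ⟨hx1, hx2⟩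
  obtain ⟨u, hu, rfl⟩ := mem_serLk.mp hx1
  obtain ⟨u', hu', he⟩ := mem_serLk.mp (hW hx2)
  obtain rfl : u' = u := Subtype.ext he
  refine mem_serLk.mpr ⟨u', mem_riemannRochSpace'.mpr fun v => ?_, rfl⟩
  have h1 := mem_riemannRochSpace'.mp hu v
  have h2 := mem_riemannRochSpace'.mp hu' v
  rcases eq_or_ne v Q with rfl | hv
  · rw [Finsupp.add_apply, Finsupp.smul_apply, Finsupp.single_eq_of_ne hQ, smul_zero,
      add_zero] at h2
    exact h2
  · rw [Finsupp.smul_apply, Finsupp.single_eq_of_ne hv, smul_zero] at h1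
    rw [Finsupp.single_eq_of_ne hv]
    exact h1

include hNA in
/-- Two places reducing to distinct places at which `j` is regular: one over `0`, one over `1`. -/
private theorem exists_two_places : ∃ P₁ P₂ : Place QBar Fb,
    0 ≤ (redPlace gR P₁).ord jk ∧ 0 ≤ (redPlace gR P₂).ord jk ∧
      redPlace gR P₁ ≠ redPlace gR P₂ := by
  obtain ⟨P₁, hP₁⟩ := exists_place_over hNA 0
  obtain ⟨P₂, hP₂⟩ := exists_place_over hNA 1
  rw [map_zero, sub_zero] at hP₁
  rw [map_one] at hP₂
  have hP₂' : 0 ≤ (redPlace gR P₂).ord jk := by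
    have h1 : (jk - 1 + 1 : Fk) ∈ ordGe (redPlace gR P₂) 0 :=
      add_mem (mem_ordGe_of_le (redPlace gR P₂) hP₂.le) (mem_ordGe_of_le (redPlace gR P₂) (by simp))
    rw [sub_add_cancel] at h1
    exact le_ord_of_mem_ordGe (redPlace gR P₂) (fun e => transcendental_jF (K := ResidueField A)
      (N := N) (F := Fk) rfl (e ▸ isAlgebraic_zero)) h1
  have hne : (redPlace gR P₁) ≠ (redPlace gR P₂) := fun e => by
    have h1 : (jk - (jk - 1) : Fk) ∈ ordGe (redPlace gR P₂) 1 :=
      sub_mem (mem_ordGe_of_le (redPlace gR P₂) (e ▸ hP₁)) (mem_ordGe_of_le (redPlace gR P₂) hP₂)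
    rw [sub_sub_cancel] at h1
    have := le_ord_of_mem_ordGe (redPlace gR P₂) one_ne_zero h1
    rw [Place.ord_one] at this
    omega
  exact ⟨P₁, P₂, hP₁.le, hP₂', hne⟩

omit hNA in
theorem single_le_smul_single {K F : Type*} [Field K] [Field F] [Algebra K F] (Q : Place K F)
    {n m : ℤ} (hn : 0 ≤ n) (hm : 1 ≤ m) : Finsupp.single Q n ≤ m • Finsupp.single Q n := by
  rw [Finsupp.smul_single, smul_eq_mul]
  exact Finsupp.single_le_single.mpr (le_mul_of_one_le_left hn hm)

omit hNA [NeZero N] [IsFunctionField QBar ↥Fb] in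
/-- Expansions of spaces of a larger divisor contain those of a smaller one. -/
private theorem serL_mono {D E : Divisor QBar Fb} (h : D ≤ E) : serL D ≤ serL E :=
  Submodule.map_mono (riemannRochSpace_mono h)

omit hNA [NeZero N] [IsFunctionField QBar ↥Fb]
  [IsFunctionField (ResidueField ↥A) ↥(modularFunctionFieldFullC (ResidueField ↥A) N)] in
/-- Reduced spaces of a larger divisor contain those of a smaller one. -/
private theorem serLk_mono {D E : Divisor (ResidueField A) Fk} (h : D ≤ E) : serLk D ≤ serLk E :=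
  Submodule.map_mono (riemannRochSpace_mono h)

include hNA in
/-- A space whose divisor is supported where `j` reduces to finite values has bounded
expansions. -/
private theorem mem_serBdd_of_mem_serL {q : ℕ} (hA : A.LiesOverPrime q) (hq : q.Prime)
    {T : Finset (Place QBar Fb)} (hT : ∀ v ∈ T, 0 ≤ (redPlace gR v).ord jk)
    {E : Divisor QBar Fb} (hE : ∀ v, v ∉ T → E v = 0) {u : LaurentSeries QBar}
    (hu : u ∈ serL E) : u ∈ serBdd A := by
  obtain ⟨w, hw, rfl⟩ := mem_serL.mp hu
  refine (bdd_of_poles hNA hA hq T hT fun v hv =>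
    ordGe_anti v ?_ (mem_riemannRochSpace'.mp hw v)).1
  rw [hE v hv, neg_zero]

/-! ### Roots congruent to one -/

include hNA in
/-- For a divisor of large degree supported where `j` reduces to finite values, reduction maps
the space onto that of the reduced divisor. -/
private theorem redSpace_serL_eq {q : ℕ} (hA : A.LiesOverPrime q) (hq : q.Prime)
    {T : Finset (Place QBar Fb)} (hT : ∀ v ∈ T, 0 ≤ (redPlace gR v).ord jk)
    {E : Divisor QBar Fb} (hE : ∀ v, v ∉ T → E v = 0) (hdeg : bigDeg gR ≤ Divisor.degree E) :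
    redSpace A (serL E) = serLk (redDiv gR E) := by
  have hsc : ∀ y ∈ serL E, y ≠ 0 → IsScalable A y := fun y hy hy0 => by
    refine isScalable_of_bdd hA hq (mem_serBdd_of_mem_serL hNA hA hq hT hE hy) ?_ hy0
    obtain ⟨u, -, rfl⟩ := mem_serL.mp hy
    exact mem_finCoeff_full hFb u.2
  obtain ⟨hfd, hfr⟩ := finrank_redSpace _ _ rfl hsc
  refine Submodule.eq_of_le_of_finrank_le (redSpace_serL_le hNA hdeg) ?_
  rw [ell_eq_ell_redDiv hNA hdeg]
  exact hfr.ge

omit hNA [NeZero N] [IsFunctionField QBar ↥Fb] in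
/-- If `div f = m D` and `h ^ m = f`, then `y ↦ (h y) ^ m` maps the space of `E + D` into that of
`m E`. -/
private theorem pow_mul_mem_serL {m : ℕ} {D : Divisor QBar Fb} {f : Fb}
    (hford : ∀ v, v.ord f = (m : ℤ) * D v) {h : LaurentSeries QBar}
    (hhm : h ^ m = (f : LaurentSeries QBar)) (E : Divisor QBar Fb) :
    ∀ y ∈ serL (E + D), (h * y) ^ m ∈ serL ((m : ℤ) • E) := by
  intro y hy
  obtain ⟨u, hu, rfl⟩ := mem_serL.mp hy
  refine mem_serL.mpr ⟨f * u ^ m, mem_riemannRochSpace'.mpr fun v => ?_, ?_⟩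
  · refine ordGe_anti v ?_ (mul_mem_ordGe v (mem_ordGe_of_le v (hford v).ge)
      (pow_mem_ordGe v (mem_riemannRochSpace'.mp hu v) m))
    rw [Finsupp.smul_apply, smul_eq_mul, Finsupp.add_apply]
    ring_nf
    rfl
  · rw [IntermediateField.coe_mul, IntermediateField.coe_pow, mul_pow, hhm]

include hNA in
/-- If `m D` is principal and `D` reduces to zero, a function with divisor `m D` has an `m`-th
root congruent to `1` among the integral series. -/
private theorem exists_root_normalised {q : ℕ} (hA : A.LiesOverPrime q) (hq : q.Prime)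
    {T : Finset (Place QBar Fb)} (hT : ∀ v ∈ T, 0 ≤ (redPlace gR v).ord jk) {m : ℕ}
    (hm : IsUnit (m : A)) {D : Divisor QBar Fb} (hD : ∀ v, v ∉ T → D v = 0)
    (hprin : m • D ∈ Divisor.principal (K := QBar) (F := Fb)) (hred : redDiv gR D = 0) :
    ∃ (f : Fb) (h : LaurentSeries QBar), (∀ v, v.ord f = (m : ℤ) * D v) ∧
      h ^ m = (f : LaurentSeries QBar) ∧ h ≠ 0 ∧ h⁻¹ ∈ serInt A ∧ h ∈ finCoeff QBar ∧
      ∃ hh : h ∈ serInt A, serRed A ⟨h, hh⟩ = 1 := by
  obtain ⟨f₀, hf₀, hfD⟩ := hprin
  have hfD' : ∀ v, v.ord f₀ = (m : ℤ) * D v := fun v => by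
    rw [← hfD v, Finsupp.smul_apply, nsmul_eq_mul]
  have hbdd := fun (y : Fb) => bdd_of_poles hNA hA hq T hT (y := y)
  have hf₀b := hbdd f₀ fun v hv =>
    mem_ordGe_of_le v (by rw [hfD', hD v hv, mul_zero])
  obtain ⟨f, hford, hfint, hfred⟩ := exists_normalised hNA hA hq hred hf₀ hfD' hf₀b.1
  have hf0ord := (hbdd f fun v hv => mem_ordGe_of_le v (by rw [hford, hD v hv, mul_zero])).2
  obtain ⟨h, hh⟩ := exists_root_series hm hfint hf0ord hfred (mem_finCoeff_full hFb f.2)
  exact ⟨f, h, hford, hh⟩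

omit hNA [NeZero N] [IsFunctionField QBar ↥Fb] in
/-- If `div f = m D` and the inverse of an `m`-th root of `f` is a function, `D` is principal. -/
private theorem mem_principal_of_root {m : ℕ} (hm0 : m ≠ 0) {D : Divisor QBar Fb} {f : Fb}
    (hford : ∀ v, v.ord f = (m : ℤ) * D v) {h : LaurentSeries QBar}
    (hhm : h ^ m = (f : LaurentSeries QBar)) {u : Fb} (hhu : h * u = 1) :
    D ∈ Divisor.principal (K := QBar) (F := Fb) := by
  have hu0 : u ≠ 0 := fun e => by simp [e] at hhu
  refine ⟨u⁻¹, inv_ne_zero hu0, fun v => ?_⟩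
  have e1 : f = (u⁻¹) ^ m := by
    refine Subtype.ext ?_
    rw [IntermediateField.coe_pow, IntermediateField.coe_inv, ← hhm,
      ← eq_inv_of_mul_eq_one_left hhu]
  have h2 := hford v
  rw [e1, FF.ord_pow] at h2
  exact (mul_left_cancel₀ (Int.natCast_ne_zero.mpr hm0) h2).symm

/-! ### Principal divisors -/

include hNA in
/-- The core statement, for a divisor already moved away from the cusps. -/
theorem isPrincipal_of_moved {q : ℕ} (hA : A.LiesOverPrime q) (hq : q.Prime) {m : ℕ}
    (hm : IsUnit (m : A)) {D : Divisor QBar Fb}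
    (hprin : m • D ∈ Divisor.principal (K := QBar) (F := Fb))
    (hred : redDiv gR D = 0)
    (hsupp : ∀ v, D v ≠ 0 → 0 ≤ (redPlace gR v).ord jk) :
    D ∈ Divisor.principal (K := QBar) (F := Fb) := by
  have hm0 : m ≠ 0 := by rintro rfl; simp at hm
  -- the two auxiliary places
  obtain ⟨P₁, P₂, hP₁, hP₂, hne⟩ := exists_two_places hNA
  set n := (bigDeg gR).toNat
  have hn : bigDeg gR ≤ (n : ℤ) := Int.self_le_toNat _
  set E₁ : Divisor QBar Fb := Finsupp.single P₁ (n : ℤ)
  set E₂ : Divisor QBar Fb := Finsupp.single P₂ (n : ℤ)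
  have hn0 : (0 : ℤ) ≤ n := Int.natCast_nonneg n
  have hdD : Divisor.degree D = 0 := by rw [← degree_redDiv gR, hred, map_zero]
  have hdE₁ : Divisor.degree E₁ = n := FF.degree_single_one _ _
  have hdE₂ : Divisor.degree E₂ = n := FF.degree_single_one _ _
  set T : Finset (Place QBar Fb) := insert P₁ (insert P₂ D.support) with hTdef
  have hT : ∀ v ∈ T, 0 ≤ (redPlace gR v).ord jk := by
    intro v hv
    rcases Finset.mem_insert.mp hv with rfl | hv
    · exact hP₁
    rcases Finset.mem_insert.mp hv with rfl | hv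
    · exact hP₂
    exact hsupp v (Finsupp.mem_support_iff.mp hv)
  have hTz : ∀ v, v ∉ T → D v = 0 ∧ E₁ v = 0 ∧ E₂ v = 0 := fun v hv => by
    simp only [hTdef, Finset.mem_insert, Finsupp.mem_support_iff, not_or, ne_eq, not_not] at hv
    exact ⟨hv.2.2, Finsupp.single_eq_of_ne hv.1, Finsupp.single_eq_of_ne hv.2.1⟩
  -- the function and its root
  obtain ⟨f, h, hford, hhm, hh0, hhi, hhfin, hh, hhred⟩ :=
    exists_root_normalised hNA hA hq hT hm (fun v hv => (hTz v hv).1) hprin hred
  -- the spaces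
  have hd12 : bigDeg gR ≤ Divisor.degree (E₁ + E₂ + D) := by
    rw [map_add, map_add, hdE₁, hdE₂, hdD]; omega
  have hd1 : bigDeg gR ≤ Divisor.degree (E₁ + D) := by
    rw [map_add, hdE₁, hdD]; omega
  have hd2 : bigDeg gR ≤ Divisor.degree (E₂ + D) := by
    rw [map_add, hdE₂, hdD]; omega
  have hdm : bigDeg gR ≤ (m : ℤ) * n :=
    hn.trans (le_mul_of_one_le_left hn0 (by omega))
  have hdm₁ : bigDeg gR ≤ Divisor.degree ((m : ℤ) • E₁) := by
    rwa [map_zsmul, hdE₁, smul_eq_mul]
  have hdm₂ : bigDeg gR ≤ Divisor.degree ((m : ℤ) • E₂) := by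
    rwa [map_zsmul, hdE₂, smul_eq_mul]
  set e₁ : Divisor (ResidueField A) Fk := Finsupp.single (redPlace gR P₁) (n : ℤ)
  set e₂ : Divisor (ResidueField A) Fk := Finsupp.single (redPlace gR P₂) (n : ℤ)
  have hre₁ : redDiv gR E₁ = e₁ := redDiv_single _ _ _
  have hre₂ : redDiv gR E₂ = e₂ := redDiv_single _ _ _
  have hr12 : redDiv gR (E₁ + E₂ + D) = e₁ + e₂ := by
    rw [map_add, map_add, hred, add_zero, hre₁, hre₂]
  have he0 : ∀ Q : Place (ResidueField A) Fk,
      (0 : Divisor (ResidueField A) Fk) ≤ Finsupp.single Q (n : ℤ) := fun Q => single_nonneg _ hn0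
  have hsm : ∀ Q : Place (ResidueField A) Fk,
      Finsupp.single Q (n : ℤ) ≤ (m : ℤ) • Finsupp.single Q (n : ℤ) := fun Q =>
    single_le_smul_single Q hn0 (by omega)
  obtain ⟨y, hy, hhy⟩ := exists_mul_root_eq_one hh hhi hhred hA hq hm hh0 hhfin
    (V₁ := serL (E₁ + D)) (V₂ := serL (E₂ + D)) (V := serL (E₁ + E₂ + D))
    (U₁ := serL ((m : ℤ) • E₁)) (U₂ := serL ((m : ℤ) • E₂)) (U := serL ((m : ℤ) • (E₁ + E₂)))
    (X₁ := serLk e₁) (X₂ := serLk e₂) (X := serLk (e₁ + e₂))
    (Y₁ := serLk ((m : ℤ) • e₁)) (Y₂ := serLk ((m : ℤ) • e₂))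
    (serL_mono (by exact add_le_add (le_add_of_nonneg_right (single_nonneg _ hn0)) le_rfl))
    (serL_mono (by exact add_le_add (le_add_of_nonneg_left (single_nonneg _ hn0)) le_rfl))
    (one_mem_serL (smul_nonneg (by omega) (single_nonneg _ hn0)))
    (one_mem_serL (smul_nonneg (by omega) (single_nonneg _ hn0)))
    (pow_mul_mem_serL hford hhm E₁) (pow_mul_mem_serL hford hhm E₂)
    (pow_mul_mem_serL hford hhm (E₁ + E₂))
    (fun u hu => mem_serBdd_of_mem_serL hNA hA hq hT (fun v hv => by
      rw [Finsupp.smul_apply, Finsupp.add_apply, (hTz v hv).2.1, (hTz v hv).2.2, add_zero,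
        smul_zero]) hu)
    (fun y hy => by obtain ⟨u, -, rfl⟩ := mem_serL.mp hy; exact mem_finCoeff_full hFb u.2)
    (fun y hy => by obtain ⟨u, -, rfl⟩ := mem_serL.mp hy; exact exists_bdd_den hFb u.2)
    (by simpa [map_add, hred, hre₁] using redSpace_serL_le hNA hd1)
    (by simpa [map_add, hred, hre₂] using redSpace_serL_le hNA hd2)
    (by
      rw [← hr12]
      refine redSpace_serL_eq hNA hA hq hT (fun v hv => ?_) hd12
      rw [Finsupp.add_apply, Finsupp.add_apply, (hTz v hv).1, (hTz v hv).2.1, (hTz v hv).2.2,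
        add_zero, add_zero])
    (by rw [← ell_eq_ell_redDiv hNA hd1, map_add, hred, add_zero, hre₁])
    (by rw [← ell_eq_ell_redDiv hNA hd2, map_add, hred, add_zero, hre₂])
    (by rw [← ell_eq_ell_redDiv hNA hd12, hr12])
    (one_mem_serLk (he0 _)) (one_mem_serLk (he0 _))
    (serLk_mono (hsm _)) (serLk_mono (hsm _))
    (by simpa [map_zsmul, hre₁] using redSpace_serL_le hNA hdm₁)
    (by simpa [map_zsmul, hre₂] using redSpace_serL_le hNA hdm₂)
    (serLk_inf_le hne (sup_le (serLk_mono (add_le_add le_rfl (hsm _)))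
      (serLk_mono (le_add_of_nonneg_left (he0 _)))))
    (serLk_inf_le hne.symm (serLk_mono (by
      rw [add_comm e₂]; exact add_le_add (hsm _) le_rfl)))
  obtain ⟨u, -, rfl⟩ := mem_serL.mp hy
  exact mem_principal_of_root hm0 hford hhm hhy

include hNA in
/-- A torsion divisor class with principal reduction is trivial. -/
theorem isPrincipal_of_redDiv {q : ℕ} (hA : A.LiesOverPrime q) (hq : q.Prime) {m : ℕ}
    (hm : IsUnit (m : A)) {D : Divisor QBar Fb}
    (hprin : m • D ∈ Divisor.principal (K := QBar) (F := Fb))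
    (hred : redDiv gR D ∈ Divisor.principal (K := ResidueField A) (F := Fk)) :
    D ∈ Divisor.principal (K := QBar) (F := Fb) := by
  obtain ⟨g₀, hg₀, hg₀D⟩ := hred
  obtain ⟨D', hDD, hD', hs⟩ := exists_moved gR hg₀ (Finsupp.ext fun v => hg₀D v)
    (finite_poles (K := ResidueField A) jk).toFinset
  have h1 : m • D' ∈ Divisor.principal (K := QBar) (F := Fb) := by
    have := sub_mem hprin (nsmul_mem hDD m)
    rwa [← nsmul_sub, sub_sub_cancel] at this
  have h2 := isPrincipal_of_moved hNA hA hq hm h1 hD' fun v hv => by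
    have := hs v hv
    rw [Set.Finite.mem_toFinset] at this
    exact not_lt.mp this
  have := add_mem hDD h2
  rwa [sub_add_cancel] at this

end Fermat.Agent.FiniteFlat.Torsion

/-! ### Injectivity on torsion -/

namespace Fermat.Agent.EichlerShimura

open Fermat.Agent.RedTorsion Fermat.Agent.FiniteFlat Fermat.Agent.FiniteFlat.Torsion

/-- Reduction of `J₀(N)` at `ℓ ∤ N` is injective on torsion prime to `ℓ`. -/
theorem injectiveOnTorsion (N : ℕ) [NeZero N] : InjectiveOnTorsion N := by
  intro ℓ hℓf hℓN A hA _ m hm z hmz hz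
  have hℓ : ℓ.Prime := hℓf.out
  have := Arith.residueField_charP hA hℓ
  have : IsAlgClosed (IsLocalRing.ResidueField A) := Arith.residueField_isAlgClosed A
  have hNA := natCast_ne_zero hℓ hℓN hA
  have : FF.IsFunctionField QBar (modularFunctionFieldBar N) := ModFun.isFunctionField_bar _
  have : FF.IsFunctionField (IsLocalRing.ResidueField A)
      (modularFunctionFieldFullC (IsLocalRing.ResidueField A) N) :=
    isFunctionField_full (F := modularFunctionFieldFullC (IsLocalRing.ResidueField A) N) rfl hNA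
  have hmA : IsUnit (m : A) := by
    rw [← residue_ne_zero_iff_isUnit, map_natCast, Ne, CharP.cast_eq_zero_iff _ ℓ]
    exact hm
  obtain ⟨D, rfl⟩ := Pic0.mk_surjective z
  have hm0 : m ≠ 0 := fun e => hm (e ▸ dvd_zero ℓ)
  rw [reductionModL_mk_of_torsion (seriesCompat hNA) (principalGeneratedByIntegral hNA) D hm0
    (by rw [natCast_zsmul]; exact hmz)] at hz
  have hmz' : Pic0.mk (m • D) = 0 := by rw [← hmz]; exact QuotientAddGroup.mk_nsmul _ D m
  rw [FF.pic0_mk_eq_zero_iff] at hz hmz' ⊢
  exact isPrincipal_of_redDiv hNA hA hℓ hmA hmz' hz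

end Fermat.Agent.EichlerShimura

end
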