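import Fermat.Agent.RedTorsion.LinePlaces
import Mathlib.FieldTheory.RatFunc.AsPolynomial
import Mathlib.FieldTheory.Separable

/-!
# `K(X)` acting through a transcendental element

For a transcendental `x` of `F/K` the field `F` is an algebra over `RatFunc K`, with the same
degree and separability as over `K(x)`.
-/

set_option autoImplicit false

noncomputable section

open Polynomial IntermediateField

namespace Fermat.Agent.RedTorsion

variable {K F : Type*} [Field K] [Field F] [Algebra K F] {x : F} (hx : Transcendental K x)

/-- `K(X) → F`, `X ↦ x`. -/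
def ratLine : RatFunc K →+* F :=
  RatFunc.liftRingHom (aeval x).toRingHom
    (nonZeroDivisors_le_comap_nonZeroDivisors_of_injective (aeval x).toRingHom
      (transcendental_iff_injective.mp hx))

/-- On polynomials the embedding is evaluation at `x`. -/
theorem ratLine_algebraMap (p : K[X]) :
    ratLine hx (algebraMap K[X] (RatFunc K) p) = aeval x p := by
  rw [ratLine, RatFunc.liftRingHom_algebraMap]
  rfl

/-- The embedding of `K(X)` fixes constants. -/
theorem ratLine_C (c : K) : ratLine hx (RatFunc.C c) = algebraMap K F c := by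
  rw [← RatFunc.algebraMap_C, ratLine_algebraMap, aeval_C]

/-- The embedding sends `X` to `x`. -/
theorem ratLine_X : ratLine hx RatFunc.X = x := by
  rw [← RatFunc.algebraMap_X, ratLine_algebraMap, aeval_X]

theorem ratLine_eq_div (f : RatFunc K) :
    ratLine hx f = aeval x f.num / aeval x f.denom := by
  conv_lhs => rw [← RatFunc.num_div_denom f]
  rw [map_div₀, ratLine_algebraMap, ratLine_algebraMap]

/-- The algebra structure over `K(X)`. -/
@[reducible] def ratAlgebra : Algebra (RatFunc K) F := (ratLine hx).toAlgebra

/-- `K(X) ≅ K(x)`. -/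
def lineEquiv : RatFunc K ≃+* K⟮x⟯ :=
  RingEquiv.ofBijective ((ratLine hx).codRestrict K⟮x⟯.toSubfield fun f => by
      rw [ratLine_eq_div]
      exact div_mem (aevalGen x f.num).2 (aevalGen x f.denom).2)
    ⟨RingHom.injective _, fun g => by
      obtain ⟨p, q, -, hg⟩ := exists_eq_div hx g
      refine ⟨algebraMap K[X] (RatFunc K) p / algebraMap K[X] (RatFunc K) q, Subtype.ext ?_⟩
      show ratLine hx _ = (g : F)
      rw [hg, map_div₀, ratLine_algebraMap, ratLine_algebraMap, IntermediateField.coe_div,
        coe_aeval_gen, coe_aeval_gen]⟩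

theorem algebraMap_comp_lineEquiv :
    letI := ratAlgebra hx
    (algebraMap K⟮x⟯ F).comp (lineEquiv hx).toRingHom =
      (RingEquiv.refl F).toRingHom.comp (algebraMap (RatFunc K) F) :=
  RingHom.ext fun _ => rfl

/-- `F` has the same degree over `RatFunc K` as over `K(x)`. -/
theorem finrank_ratAlgebra :
    letI := ratAlgebra hx
    Module.finrank (RatFunc K) F = Module.finrank K⟮x⟯ F :=
  letI := ratAlgebra hx
  Algebra.finrank_eq_of_equiv_equiv (lineEquiv hx) (RingEquiv.refl F) (algebraMap_comp_lineEquiv hx)

/-- `F` is finite over `K(X)`. -/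
theorem finite_ratAlgebra [FiniteDimensional K⟮x⟯ F] :
    letI := ratAlgebra hx
    FiniteDimensional (RatFunc K) F :=
  letI := ratAlgebra hx
  FiniteDimensional.of_finrank_pos (by rw [finrank_ratAlgebra hx]; exact Module.finrank_pos)

/-- `F` is separable over `K(X)` when it is over `K(x)`. -/
theorem isSeparable_ratAlgebra [Algebra.IsSeparable K⟮x⟯ F] :
    letI := ratAlgebra hx
    Algebra.IsSeparable (RatFunc K) F := by
  let _ := ratAlgebra hx
  refine Algebra.IsSeparable.of_equiv_equiv (lineEquiv hx).symm (RingEquiv.refl F) ?_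
  exact RingHom.ext fun g => congrArg Subtype.val ((lineEquiv hx).apply_symm_apply g)

end Fermat.Agent.RedTorsion

end
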