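import Fermat.Agent.FF.Degree
import Mathlib.FieldTheory.PurelyInseparable.Basic
import Mathlib.Algebra.CharP.Frobenius

/-!
# A criterion for separability over a rational subfield

Over a perfect field of characteristic `p`, a function field `F` is separable over `K(x)` as soon
as `x` is not a `p`-th power in `F`.
-/

set_option autoImplicit false

noncomputable section

open Polynomial IntermediateField

namespace Fermat.Agent.RedTorsion

open Fermat.Agent.FF

variable {K F : Type*} [Field K] [Field F] [Algebra K F] [IsFunctionField K F]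

/-- The degree over the field generated by `x ^ q` is `q` times that over `K(x)`. -/
theorem finrank_adjoin_pow {x : F} (hx : Transcendental K x) {q : ℕ} (hq0 : 0 < q) :
    Module.finrank K⟮x ^ q⟯ F = q * Module.finrank K⟮x⟯ F := by
  have hxq : Transcendental K (x ^ q) := hx.pow hq0
  have h1 := degree_poles (K := K) hxq
  have h2 : poles K (x ^ q) = (q : ℕ) • poles K x := by
    refine Finsupp.ext fun v => ?_
    rw [Finsupp.smul_apply, poles_apply, poles_apply, ord_pow, nsmul_eq_mul]
    rcases le_total (v.ord x) 0 with h | h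
    · rw [max_eq_right (neg_nonneg.mpr h),
        max_eq_right (neg_nonneg.mpr (mul_nonpos_of_nonneg_of_nonpos (Int.natCast_nonneg q) h))]
      ring
    · rw [max_eq_left (neg_nonpos.mpr h),
        max_eq_left (neg_nonpos.mpr (mul_nonneg (Int.natCast_nonneg q) h))]
      ring
  rw [h2, map_nsmul, degree_poles hx, nsmul_eq_mul] at h1
  exact_mod_cast h1.symm

/-- In characteristic `p` the inseparable degree clears inseparability. -/
theorem pow_mem_of_finrank_eq {k E : Type*} [Field k] [Field E] [Algebra k E]
    {S : IntermediateField k E}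
    (p : ℕ) [Fact p.Prime] [ExpChar S p] [IsPurelyInseparable S E] [FiniteDimensional S E] {a : ℕ}
    (ha : Module.finrank S E = p ^ a) (y : E) : y ^ p ^ a ∈ S := by
  obtain ⟨m, c, hmc⟩ := IsPurelyInseparable.minpoly_eq_X_pow_sub_C S p y
  have h1 : p ^ m ≤ p ^ a := by
    have h2 := minpoly.natDegree_le (A := S) y
    rw [hmc, natDegree_X_pow_sub_C, ha] at h2
    exact h2
  have h3 : y ^ p ^ m = (c : E) := by
    have h4 := minpoly.aeval S y
    rw [hmc, map_sub, map_pow, aeval_X, aeval_C, sub_eq_zero] at h4
    exact h4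
  obtain ⟨b, hb⟩ := Nat.exists_eq_add_of_le ((Nat.pow_le_pow_iff_right
    (Fact.out : p.Prime).one_lt).mp h1)
  rw [hb, pow_add, pow_mul, h3]
  exact pow_mem c.2 _

theorem isSeparable_of_not_pow (p : ℕ) [Fact p.Prime] [CharP K p] [PerfectField K] {x : F}
    (hx : Transcendental K x) (hpow : ∀ y : F, y ^ p ≠ x) : Algebra.IsSeparable K⟮x⟯ F := by
  have : CharP F p := charP_of_injective_algebraMap (algebraMap K F).injective p
  have hfd := finiteDimensional_adjoin (K := K) hx
  set S := separableClosure K⟮x⟯ F with hS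
  obtain ⟨a, ha⟩ := finInsepDegree_eq_pow (F := S) (E := F) p
  rw [IsPurelyInseparable.finInsepDegree_eq] at ha
  rcases Nat.eq_zero_or_pos a with rfl | hapos
  · rw [pow_zero, IntermediateField.finrank_eq_one_iff_eq_top] at ha
    exact (separableClosure.eq_top_iff _ _).mp ha
  exfalso
  set q := p ^ a with hq
  have hq0 : 0 < q := pow_pos (Fact.out : p.Prime).pos a
  -- the image of the iterated Frobenius
  let φ : F →+* F := iterateFrobenius F p a
  have hφ : ∀ y, φ y = y ^ q := fun y => iterateFrobenius_def p a y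
  let E : IntermediateField K F :=
    { φ.fieldRange with
      algebraMap_mem' := fun c => by
        obtain ⟨d, hd⟩ := (bijective_iterateFrobenius K p a).2 c
        refine ⟨algebraMap K F d, ?_⟩
        rw [hφ, ← map_pow, ← hd, iterateFrobenius_def] }
  have hES : ∀ y : F, y ^ q ∈ S := pow_mem_of_finrank_eq p ha
  set T : IntermediateField K F := K⟮x ^ q⟯ with hT
  have hxq : Transcendental K (x ^ q) := hx.pow hq0
  have hfdT := finiteDimensional_adjoin (K := K) hxq
  have hTF : Module.finrank T F = q * Module.finrank K⟮x⟯ F := finrank_adjoin_pow hx hq0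
  have hTE : T ≤ E := by
    rw [hT, adjoin_simple_le_iff]
    exact ⟨x, hφ x⟩
  have hKxS : ∀ g : K⟮x⟯, (g : F) ∈ S := fun g => S.algebraMap_mem g
  let S' : IntermediateField K F := S.restrictScalars K
  have hES' : E ≤ S' := by
    rintro _ ⟨y, rfl⟩
    rw [hφ]
    exact hES y
  set ET := IntermediateField.extendScalars hTE with hET
  set ST := IntermediateField.extendScalars (hTE.trans hES') with hST
  -- the iterated Frobenius as a semilinear isomorphism onto `E`
  have hETn : Module.finrank T ET = Module.finrank K⟮x⟯ F := by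
    let e₁ : F ≃+* E := RingEquiv.ofBijective φ.rangeRestrictField
      ⟨φ.rangeRestrictField.injective, fun z => by obtain ⟨_, u, rfl⟩ := z; exact ⟨u, rfl⟩⟩
    have hmap : ∀ g : K⟮x⟯, φ g ∈ T := by
      intro g
      obtain ⟨r, s, hrs⟩ := (mem_adjoin_simple_iff (F := K) (g : F)).mp g.2
      have hpoly : ∀ t : K[X], φ (aeval x t) ∈ T := by
        intro t
        induction t using Polynomial.induction_on' with
        | add t t' ht ht' => rw [map_add, map_add]; exact add_mem ht ht'
        | monomial n c =>
          rw [aeval_monomial, map_mul, map_pow, hφ, hφ, ← map_pow]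
          exact mul_mem (T.algebraMap_mem _) (pow_mem (mem_adjoin_simple_self K _) _)
      rw [hrs, map_div₀]
      exact div_mem (hpoly r) (hpoly s)
    let i : K⟮x⟯ →+* T := (φ.comp (algebraMap K⟮x⟯ F)).codRestrict T.toSubfield hmap
    have hi : Function.Surjective i := by
      intro t
      have hle : T ≤ IntermediateField.mk
          { carrier := φ '' (K⟮x⟯ : Set F)
            mul_mem' := by rintro _ _ ⟨u, hu, rfl⟩ ⟨v, hv, rfl⟩; exact ⟨u * v, mul_mem hu hv,
              map_mul _ _ _⟩
            one_mem' := ⟨1, one_mem _, map_one _⟩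
            add_mem' := by rintro _ _ ⟨u, hu, rfl⟩ ⟨v, hv, rfl⟩; exact ⟨u + v, add_mem hu hv,
              map_add _ _ _⟩
            zero_mem' := ⟨0, zero_mem _, map_zero _⟩
            algebraMap_mem' := fun c => by
              obtain ⟨d, hd⟩ := (bijective_iterateFrobenius K p a).2 c
              refine ⟨algebraMap K F d, K⟮x⟯.algebraMap_mem d, ?_⟩
              rw [hφ, ← map_pow, ← hd, iterateFrobenius_def] }
          (by rintro _ ⟨u, hu, rfl⟩; exact ⟨u⁻¹, inv_mem hu, map_inv₀ _ _⟩) := by
        rw [hT, adjoin_simple_le_iff]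
        exact ⟨x, mem_adjoin_simple_self K x, hφ x⟩
      obtain ⟨u, hu, hut⟩ := hle t.2
      exact ⟨⟨u, hu⟩, Subtype.ext hut⟩
    exact (Algebra.finrank_eq_of_equiv_equiv (RingEquiv.ofBijective i ⟨i.injective, hi⟩)
      (show F ≃+* ET from e₁) (RingHom.ext fun g => Subtype.ext rfl)).symm
  have hSTF : Module.finrank ST F = q := by
    rw [← ha]
    exact Algebra.finrank_eq_of_equiv_equiv (RingEquiv.refl _ : ST ≃+* S) (RingEquiv.refl F)
      (RingHom.ext fun g => rfl)
  have hSTn : Module.finrank T ST = Module.finrank K⟮x⟯ F := by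
    have h1 := Module.finrank_mul_finrank T ST F
    rw [hSTF, hTF, mul_comm q] at h1
    exact Nat.eq_of_mul_eq_mul_right hq0 h1
  have hle : ET ≤ ST := fun y hy => hES' hy
  have heq : ET = ST := IntermediateField.eq_of_le_of_finrank_eq hle (hETn.trans hSTn.symm)
  have hxE : x ∈ ET := by
    rw [heq]
    exact hKxS ⟨x, mem_adjoin_simple_self K x⟩
  obtain ⟨y, hy⟩ : x ∈ E := hxE
  refine hpow (y ^ p ^ (a - 1)) ?_
  rw [← pow_mul, ← pow_succ, Nat.sub_add_cancel hapos, ← hy, hφ]

end Fermat.Agent.RedTorsion

end
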