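import Fermat.Agent.Igusa.Degree
import Fermat.Agent.RedTorsion.RatLine
import Fermat.Agent.RedTorsion.SepCriterion
import Fermat.Agent.FF.Structure

/-!
# The full modular function field over any field, as an extension of `K(j)`
-/

set_option autoImplicit false

noncomputable section

open Polynomial IntermediateField ModularCurve

namespace Fermat.Agent.RedTorsion

open Fermat.Agent.FF

variable {K : Type*} [Field K] {N : ℕ} [NeZero N] {F : IntermediateField K (LaurentSeries K)}
  (hF : F = modularFunctionFieldFullC K N)

/-- `j` in `F`. -/
def jF : F := ⟨jqModC K, hF ▸ jqModC_mem_full K N⟩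

omit [NeZero N] in
/-- The expansion of `jF` is `jqModC`. -/
theorem coe_jF : (jF hF : LaurentSeries K) = jqModC K := rfl

/-- `j` is transcendental over the constants. -/
theorem transcendental_jqModC (K : Type*) [Field K] : Transcendental K (jqModC K) :=
  transcendental_iff_injective.mpr Igusa.aeval_jqModC_injective

omit [NeZero N] in
/-- `j` is transcendental in the modular function field. -/
theorem transcendental_jF : Transcendental K (jF hF) := fun h =>
  transcendental_jqModC K (h.algHom F.val)

omit [NeZero N] in
theorem coe_aeval_jF (p : K[X]) : ((aeval (jF hF) p : F) : LaurentSeries K) = aeval (jqModC K) p :=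
  (aeval_algHom_apply F.val (jF hF) p).symm

omit [NeZero N] in
theorem coe_ratLine (f : RatFunc K) :
    (ratLine (transcendental_jF hF) f : LaurentSeries K) = ratLine (transcendental_jqModC K) f := by
  rw [ratLine_eq_div, ratLine_eq_div, IntermediateField.coe_div, coe_aeval_jF, coe_aeval_jF]

/-- The degree over `K(j)` is the index of `Γ₀(N)` when `N ≠ 0` in `K`. -/
theorem finrank_jF (hN : (N : K) ≠ 0) :
    Module.finrank K⟮jF hF⟯ F = Nat.card (ModFun.Coset N) := by
  rw [← finrank_ratAlgebra (transcendental_jF hF), ← (Igusa.hasFullDegree N K hN).2]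
  let _ := ratAlgebra (transcendental_jF hF)
  have hmem : ∀ y : LaurentSeries K, y ∈ F ↔ y ∈ Igusa.fullOverLine K N := fun y => by
    rw [Igusa.mem_fullOverLine_iff, hF]
  let e : F ≃+* Igusa.fullOverLine K N :=
    { toFun := fun y => ⟨y, (hmem y).mp y.2⟩
      invFun := fun y => ⟨y, (hmem y).mpr y.2⟩
      left_inv := fun _ => rfl
      right_inv := fun _ => rfl
      map_mul' := fun _ _ => rfl
      map_add' := fun _ _ => rfl }
  refine Algebra.finrank_eq_of_equiv_equiv (lineEquiv (transcendental_jqModC K)) e ?_
  exact RingHom.ext fun f => Subtype.ext (coe_ratLine hF f).symm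

/-- The field is finite over `K(j)`. -/
theorem finiteDimensional_jF (hN : (N : K) ≠ 0) : FiniteDimensional K⟮jF hF⟯ F :=
  FiniteDimensional.of_finrank_pos (by rw [finrank_jF hF hN]; exact Nat.card_pos)

include hF in
/-- The field is a function field of one variable. -/
theorem isFunctionField_full (hN : (N : K) ≠ 0) : IsFunctionField K F :=
  haveI := finiteDimensional_jF hF hN
  isFunctionField_of_finite (transcendental_jF hF)

/-- Over a perfect field the extension over `K(j)` is separable. -/
theorem isSeparable_jF [PerfectField K] (hN : (N : K) ≠ 0) :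
    Algebra.IsSeparable K⟮jF hF⟯ F := by
  have := finiteDimensional_jF hF hN
  rcases CharP.exists K with ⟨p, hp⟩
  rcases CharP.char_is_prime_or_zero K p with hprime | rfl
  · have := Fact.mk hprime
    have := isFunctionField_full hF hN
    refine isSeparable_of_not_pow p (transcendental_jF hF) fun y hy => ?_
    have h1 := congrArg (fun z : F => (z : LaurentSeries K).order) hy
    simp only [IntermediateField.coe_pow, coe_jF, HahnSeries.order_pow] at h1
    rw [Igusa.order_jqModC, nsmul_eq_mul] at h1
    have h2 : (p : ℤ) ∣ -1 := ⟨_, h1.symm⟩
    rw [dvd_neg] at h2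
    exact hprime.ne_one (by exact_mod_cast Int.eq_one_of_dvd_one (by positivity) h2)
  · have := CharP.charP_to_charZero K
    have : Algebra.IsAlgebraic K⟮jF hF⟯ F := inferInstance
    infer_instance

end Fermat.Agent.RedTorsion

end
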