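import Mathlib
import Fermat.Prelude.Def_FLTPrelim_Ramification
import Fermat.Agent.Series.AlmostIntegral
import Fermat.Agent.Igusa.LaurentExt

/-!
# Laurent series with coefficients in a valuation ring of algebraic numbers

`serInt A` is the ring of series with coefficients in `A`, `serRed A` its coefficientwise
reduction. Series with coefficients in a number field and bounded denominators are constants
times primitive series, so reduction preserves dimensions of spaces of such series.

These are `isScalable_of_bdd` and `finrank_redSpace`; `exists_root_powerSeries` gives roots of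
series congruent to one.
-/

set_option autoImplicit false

noncomputable section

open IsLocalRing ModularCurve

namespace Fermat.Agent.RedTorsion

/-- The module structure on Laurent series coming from the algebra structure. -/
abbrev serModule (K : Type*) [Field K] : Module K (LaurentSeries K) := Algebra.toModule

/-- The scalar action on Laurent series coming from the algebra structure. -/
abbrev serSMul (K : Type*) [Field K] : SMul K (LaurentSeries K) := Algebra.toSMul

attribute [local instance 10000] serModule serSMul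

variable {L : Type*} [Field L]

/-! ### Integral series and their reduction -/

section Basic

variable (A : ValuationSubring L)

/-- Series with coefficients in `A`. -/
def serInt : Subring (LaurentSeries L) := (coeffMap A.subtype).range

variable {A}

/-- A series is integral iff all its coefficients are. -/
theorem mem_serInt {f : LaurentSeries L} : f ∈ serInt A ↔ ∀ k, f.coeff k ∈ A := by
  constructor
  · rintro ⟨y, rfl⟩ k
    rw [coeffMap_coeff]
    exact (y.coeff k).2
  · intro h
    refine ⟨⟨fun k => ⟨f.coeff k, h k⟩, f.isPWO_support.mono ?_⟩, ?_⟩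
    · intro k hk
      simp only [Function.mem_support, HahnSeries.mem_support, ne_eq] at hk ⊢
      exact fun h0 => hk (Subtype.ext h0)
    · ext k; rfl

variable (A)

/-- A series with coefficients in `A`, as a series over `A`. -/
def serLift : serInt A ≃+* LaurentSeries A :=
  (RingEquiv.ofBijective (coeffMap A.subtype).rangeRestrict
    ⟨fun x y h => HahnSeries.ext (funext fun n => Subtype.ext (by
        simpa using congrArg (fun z => z.1.coeff n) h)),
      RingHom.rangeRestrict_surjective _⟩).symm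

/-- Coefficientwise reduction. -/
def serRed : serInt A →+* LaurentSeries (ResidueField A) :=
  (coeffMap (residue A)).comp (serLift A).toRingHom

variable {A}

theorem coe_coeff_serLift (f : serInt A) (n : ℤ) :
    (((serLift A f).coeff n : A) : L) = f.1.coeff n :=
  congrArg (fun z : serInt A => z.1.coeff n) ((serLift A).symm_apply_apply f)

/-- Reduction is coefficientwise. -/
theorem coeff_serRed (f : serInt A) (n : ℤ) :
    (serRed A f).coeff n = residue A ⟨f.1.coeff n, mem_serInt.mp f.2 n⟩ :=
  congrArg (residue A) (Subtype.ext (coe_coeff_serLift f n))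

/-- The reduction of a series over `A` is the reduction of its coefficients. -/
theorem serRed_coeffMap (y : LaurentSeries A) (h : coeffMap A.subtype y ∈ serInt A) :
    serRed A ⟨coeffMap A.subtype y, h⟩ = coeffMap (residue A) y := by
  ext n
  exact (coeff_serRed _ n).trans
    ((congrArg (residue A) (Subtype.ext (coeffMap_coeff A.subtype y n))).trans
      (coeffMap_coeff (residue A) y n).symm)

theorem coeff_smul_series {K : Type*} [Field K] (c : K) (f : LaurentSeries K) (n : ℤ) :
    (c • f).coeff n = c * f.coeff n := by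
  rw [Algebra.smul_def, Igusa.coeff_algebraMap_mul]

/-- The scalar action on series is associative. -/
theorem ser_smul_smul (a b : L) (f : LaurentSeries L) : a • b • f = (a * b) • f := by
  simp only [Algebra.smul_def, map_mul, mul_assoc]

/-- `1` acts trivially on series. -/
theorem ser_one_smul (f : LaurentSeries L) : (1 : L) • f = f := by
  simp only [Algebra.smul_def, map_one, one_mul]

theorem ser_smul_zero (a : L) : a • (0 : LaurentSeries L) = 0 := by
  simp only [Algebra.smul_def, mul_zero]

theorem ser_smul_add (a : L) (f g : LaurentSeries L) : a • (f + g) = a • f + a • g := by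
  simp only [Algebra.smul_def, mul_add]

theorem ser_smul_neg (a : L) (f : LaurentSeries L) : a • (-f) = -(a • f) := by
  simp only [Algebra.smul_def, mul_neg]

theorem ser_smul_mul_smul (a b : L) (f g : LaurentSeries L) :
    (a • f) * (b • g) = (a * b) • (f * g) := by
  simp only [Algebra.smul_def, map_mul]; ring

theorem ser_smul_pow (a : L) (f : LaurentSeries L) (n : ℕ) : (a • f) ^ n = a ^ n • f ^ n := by
  simp only [Algebra.smul_def, mul_pow, map_pow]

/-- Integral constants are integral series. -/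
theorem algebraMap_mem_serInt {c : L} (hc : c ∈ A) :
    algebraMap L (LaurentSeries L) c ∈ serInt A := by
  refine mem_serInt.mpr fun k => ?_
  rw [algebraMap_laurentSeries_eq_single, HahnSeries.coeff_single]
  split
  · exact hc
  · exact zero_mem _

/-- The reduction of a constant series is the constant residue. -/
theorem serRed_algebraMap {c : L} (hc : c ∈ A) :
    serRed A ⟨_, algebraMap_mem_serInt hc⟩ =
      algebraMap (ResidueField A) (LaurentSeries (ResidueField A)) (residue A ⟨c, hc⟩) := by
  ext n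
  simp only [coeff_serRed, algebraMap_laurentSeries_eq_single, HahnSeries.coeff_single]
  split
  · rfl
  · exact map_zero (residue A)

/-- Integral multiples of integral series are integral. -/
theorem smul_mem_serInt {c : L} (hc : c ∈ A) {f : LaurentSeries L} (hf : f ∈ serInt A) :
    c • f ∈ serInt A := by
  rw [Algebra.smul_def]
  exact mul_mem (algebraMap_mem_serInt hc) hf

/-- Reduction is semilinear for the residue map. -/
theorem serRed_smul {c : L} (hc : c ∈ A) (f : serInt A) :
    serRed A ⟨_, smul_mem_serInt hc f.2⟩ = residue A ⟨c, hc⟩ • serRed A f := by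
  refine (congrArg (serRed A) (Subtype.ext (Algebra.smul_def c f.1) :
    (⟨_, smul_mem_serInt hc f.2⟩ : serInt A) = ⟨_, algebraMap_mem_serInt hc⟩ * f)).trans ?_
  rw [map_mul, serRed_algebraMap hc, Algebra.smul_def]

theorem valuation_coeff_lt_one_of_serRed_eq_zero {f : serInt A} (h : serRed A f = 0) (n : ℤ) :
    A.valuation (f.1.coeff n) < 1 := by
  have h1 := congrArg (fun z => z.coeff n) h
  simp only [coeff_serRed, HahnSeries.coeff_zero, residue_eq_zero_iff] at h1
  exact (A.valuation_lt_one_iff ⟨_, mem_serInt.mp f.2 n⟩).mp h1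

/-- `f` is a constant times a primitive series. -/
def IsScalable (A : ValuationSubring L) (f : LaurentSeries L) : Prop :=
  ∃ c : L, c ≠ 0 ∧ ∃ g : serInt A, serRed A g ≠ 0 ∧ f = c • (g : LaurentSeries L)

variable (A) in
/-- The reduction of a space of series. -/
def redSpace (W : Submodule L (LaurentSeries L)) :
    Submodule (ResidueField A) (LaurentSeries (ResidueField A)) where
  carrier := {g | ∃ f : serInt A, (f : LaurentSeries L) ∈ W ∧ serRed A f = g}
  add_mem' := by
    rintro _ _ ⟨f, hf, rfl⟩ ⟨g, hg, rfl⟩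
    exact ⟨f + g, by rw [Subring.coe_add]; exact W.add_mem hf hg, map_add _ _ _⟩
  zero_mem' := ⟨0, by simp, map_zero _⟩
  smul_mem' := by
    rintro c _ ⟨f, hf, rfl⟩
    obtain ⟨⟨a, ha⟩, rfl⟩ := residue_surjective c
    exact ⟨⟨_, smul_mem_serInt ha f.2⟩, W.smul_mem a hf, serRed_smul ha f⟩

theorem serRed_mem_redSpace {W : Submodule L (LaurentSeries L)} (f : serInt A)
    (hf : (f : LaurentSeries L) ∈ W) : serRed A f ∈ redSpace A W := ⟨f, hf, rfl⟩

theorem redSpace_mono {W W' : Submodule L (LaurentSeries L)} (h : W ≤ W') :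
    redSpace A W ≤ redSpace A W' := fun _ ⟨f, hf, e⟩ => ⟨f, h hf, e⟩

/-- Reduction preserves dimensions. -/
theorem finrank_redSpace (n : ℕ) : ∀ (W : Submodule L (LaurentSeries L)) [FiniteDimensional L W],
    Module.finrank L W = n → (∀ f ∈ W, f ≠ 0 → IsScalable A f) →
      FiniteDimensional (ResidueField A) (redSpace A W) ∧
        Module.finrank (ResidueField A) (redSpace A W) = n := by
  induction n with
  | zero =>
    intro W _ hW _
    have hbot : redSpace A W = ⊥ := by
      rw [Submodule.finrank_eq_zero] at hW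
      refine (Submodule.eq_bot_iff _).mpr ?_
      rintro _ ⟨f, hf, rfl⟩
      rw [hW, Submodule.mem_bot] at hf
      rw [show f = 0 from Subtype.ext hf, map_zero]
    rw [hbot]
    exact ⟨inferInstance, finrank_bot _ _⟩
  | succ n ih =>
    intro W _ hW hsc
    -- `W` has a primitive element `g`, with a coefficient `g_k` a unit.
    obtain ⟨f, hf, hf0⟩ : ∃ f ∈ W, f ≠ 0 := by
      by_contra! h
      rw [(Submodule.eq_bot_iff _).mpr h, finrank_bot] at hW
      omega
    obtain ⟨c, hc, g, hg, rfl⟩ := hsc f hf hf0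
    have hgW : (g : LaurentSeries L) ∈ W := by
      have := W.smul_mem c⁻¹ hf
      rwa [ser_smul_smul, inv_mul_cancel₀ hc, ser_one_smul] at this
    obtain ⟨k, hk⟩ : ∃ k, (serRed A g).coeff k ≠ 0 := by
      by_contra! h
      exact hg (HahnSeries.ext (funext h))
    have hk0 : g.1.coeff k ≠ 0 := fun h0 => hk (by
      rw [coeff_serRed, ← map_zero (residue A)]; exact congrArg _ (Subtype.ext h0))
    have hunit : (g.1.coeff k)⁻¹ ∈ A := by
      rw [coeff_serRed, Ne, residue_eq_zero_iff, mem_maximalIdeal, mem_nonunits_iff, not_not] at hk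
      rw [← A.valuation_le_one_iff, map_inv₀,
        (A.valuation_eq_one_iff ⟨_, mem_serInt.mp g.2 k⟩).mp hk, inv_one]
    -- `W` is the sum of `L ∙ g` and the series `W'` with vanishing coefficient at `k`.
    let W' : Submodule L (LaurentSeries L) :=
      { carrier := {w | w ∈ W ∧ w.coeff k = 0}
        add_mem' := fun h h' => ⟨W.add_mem h.1 h'.1, by simp [h.2, h'.2]⟩
        zero_mem' := ⟨W.zero_mem, rfl⟩
        smul_mem' := fun a w h => ⟨W.smul_mem a h.1, by rw [coeff_smul_series, h.2, mul_zero]⟩ }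
    have hle : W' ≤ W := fun w h => h.1
    have : FiniteDimensional L W' := Submodule.finiteDimensional_of_le hle
    have hdisj : Disjoint W' (L ∙ (g : LaurentSeries L)) := by
      rw [Submodule.disjoint_span_singleton' fun h0 => hk0 (by rw [h0]; rfl)]
      exact fun h => hk0 h.2
    have hsup : W' ⊔ (L ∙ (g : LaurentSeries L)) = W := by
      refine le_antisymm (sup_le hle ((Submodule.span_singleton_le_iff_mem _ _).mpr hgW)) ?_
      intro w hw
      refine Submodule.mem_sup.mpr ⟨w - (w.coeff k / g.1.coeff k) • (g : LaurentSeries L),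
        ⟨W.sub_mem hw (W.smul_mem _ hgW), ?_⟩, _, Submodule.smul_mem _ _
          (Submodule.mem_span_singleton_self _), sub_add_cancel _ _⟩
      rw [HahnSeries.coeff_sub, coeff_smul_series, div_mul_cancel₀ _ hk0, sub_self]
    have hW' : Module.finrank L W' = n := by
      have h1 := Submodule.finrank_sup_add_finrank_inf_eq W' (L ∙ (g : LaurentSeries L))
      rw [hsup, hdisj.eq_bot, finrank_bot,
        finrank_span_singleton (fun h0 => hk0 (by rw [h0]; rfl))] at h1
      omega
    obtain ⟨hfd, hfr⟩ := ih W' hW' fun w hw => hsc w (hle hw)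
    -- The same holds after reduction, `g_k` being a unit.
    have hred : redSpace A W = redSpace A W' ⊔ (ResidueField A ∙ serRed A g) := by
      refine le_antisymm ?_ (sup_le (redSpace_mono hle)
        ((Submodule.span_singleton_le_iff_mem _ _).mpr (serRed_mem_redSpace g hgW)))
      rintro _ ⟨w, hw, rfl⟩
      have ha : w.1.coeff k / g.1.coeff k ∈ A :=
        div_eq_mul_inv (w.1.coeff k) _ ▸ mul_mem (mem_serInt.mp w.2 k) hunit
      let w' : serInt A := w - ⟨_, smul_mem_serInt ha g.2⟩
      have hw' : (w' : LaurentSeries L) ∈ W' := ⟨W.sub_mem hw (W.smul_mem _ hgW), by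
        show (w.1 - (w.1.coeff k / g.1.coeff k) • g.1).coeff k = 0
        rw [HahnSeries.coeff_sub, coeff_smul_series, div_mul_cancel₀ _ hk0, sub_self]⟩
      refine Submodule.mem_sup.mpr ⟨_, serRed_mem_redSpace w' hw', _, Submodule.smul_mem _
        (residue A ⟨_, ha⟩) (Submodule.mem_span_singleton_self _), ?_⟩
      rw [map_sub, serRed_smul ha, sub_add_cancel]
    have hdisj' : Disjoint (redSpace A W') (ResidueField A ∙ serRed A g) := by
      rw [Submodule.disjoint_span_singleton' hg]
      rintro ⟨w, hw, he⟩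
      refine hk ?_
      rw [← he, coeff_serRed, ← map_zero (residue A)]
      exact congrArg _ (Subtype.ext hw.2)
    rw [hred]
    refine ⟨Submodule.finiteDimensional_sup _ _, ?_⟩
    have h1 := Submodule.finrank_sup_add_finrank_inf_eq (redSpace A W')
      (ResidueField A ∙ serRed A g)
    rw [hdisj'.eq_bot, finrank_bot, finrank_span_singleton hg, hfr] at h1
    omega

end Basic

/-! ### Coefficients in a number field and bounded denominators -/

section FinCoeff

variable (L) [CharZero L]

/-- Series whose coefficients lie in a number field. -/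
def finCoeff : Subfield (LaurentSeries L) where
  carrier := {f | ∃ E : IntermediateField ℚ L, FiniteDimensional ℚ E ∧
    f ∈ (coeffMap (algebraMap E L)).range}
  mul_mem' := by
    rintro f g ⟨E, hE, x, rfl⟩ ⟨E', hE', y, rfl⟩
    have := hE; have := hE'
    refine ⟨E ⊔ E', inferInstance,
      coeffMap (IntermediateField.inclusion le_sup_left).toRingHom x *
        coeffMap (IntermediateField.inclusion le_sup_right).toRingHom y, ?_⟩
    rw [map_mul, coeffMap_coeffMap, coeffMap_coeffMap]
    rfl
  add_mem' := by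
    rintro f g ⟨E, hE, x, rfl⟩ ⟨E', hE', y, rfl⟩
    have := hE; have := hE'
    refine ⟨E ⊔ E', inferInstance,
      coeffMap (IntermediateField.inclusion le_sup_left).toRingHom x +
        coeffMap (IntermediateField.inclusion le_sup_right).toRingHom y, ?_⟩
    rw [map_add, coeffMap_coeffMap, coeffMap_coeffMap]
    rfl
  one_mem' := ⟨⊥, inferInstance, one_mem _⟩
  zero_mem' := ⟨⊥, inferInstance, zero_mem _⟩
  neg_mem' := by
    rintro f ⟨E, hE, hf⟩
    exact ⟨E, hE, neg_mem hf⟩
  inv_mem' := by
    rintro f ⟨E, hE, x, rfl⟩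
    exact ⟨E, hE, x⁻¹, map_inv₀ _ _⟩

variable {L}

theorem mem_finCoeff {f : LaurentSeries L} :
    f ∈ finCoeff L ↔ ∃ E : IntermediateField ℚ L, FiniteDimensional ℚ E ∧ ∀ k, f.coeff k ∈ E := by
  constructor
  · rintro ⟨E, hE, y, rfl⟩
    exact ⟨E, hE, fun k => by rw [coeffMap_coeff]; exact (y.coeff k).2⟩
  · rintro ⟨E, hE, h⟩
    refine ⟨E, hE, ⟨fun k => ⟨f.coeff k, h k⟩, f.isPWO_support.mono ?_⟩, ?_⟩
    · intro k hk
      simp only [Function.mem_support, HahnSeries.mem_support, ne_eq] at hk ⊢
      exact fun h0 => hk (Subtype.ext h0)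
    · ext k; rfl

theorem algebraMap_mem_finCoeff [Algebra.IsAlgebraic ℚ L] (c : L) :
    algebraMap L (LaurentSeries L) c ∈ finCoeff L := by
  refine mem_finCoeff.mpr ⟨IntermediateField.adjoin ℚ {c},
    IntermediateField.adjoin.finiteDimensional (Algebra.IsAlgebraic.isAlgebraic c).isIntegral,
    fun k => ?_⟩
  rw [algebraMap_laurentSeries_eq_single, HahnSeries.coeff_single]
  split
  · exact IntermediateField.mem_adjoin_simple_self ℚ c
  · exact zero_mem _

variable {A : ValuationSubring L} {q : ℕ}

omit [CharZero L] in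
theorem valuation_prime_lt_one (hA : A.LiesOverPrime q) : A.valuation (q : L) < 1 :=
  (ValuationSubring.mem_nonunits_iff (A := A)).mp hA

theorem exists_zpow_ratCast (hA : A.LiesOverPrime q) (hq : q.Prime) {a : ℚ} (ha : a ≠ 0) :
    ∃ z : ℤ, A.valuation (a : L) = A.valuation (q : L) ^ z := by
  have hnat : ∀ m : ℕ, m ≠ 0 → ∃ z : ℤ, A.valuation (m : L) = A.valuation (q : L) ^ z := by
    intro m hm
    obtain ⟨k, u, hu, rfl⟩ := Nat.exists_eq_pow_mul_and_not_dvd hm q hq.ne_one
    refine ⟨k, ?_⟩
    have hu1 : A.valuation (u : L) = 1 := by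
      obtain ⟨x, y, hxy⟩ := Int.isCoprime_iff_gcd_eq_one.mpr
        (show Int.gcd (q : ℤ) (u : ℤ) = 1 from (hq.coprime_iff_not_dvd.mpr hu).gcd_eq_one)
      refine le_antisymm ((A.valuation_le_one_iff _).mpr (natCast_mem A u))
        (not_lt.mp fun hlt => ?_)
      have h1 : (x : L) * (q : L) + (y : L) * (u : L) = 1 := by
        exact_mod_cast congrArg (Int.cast (R := L)) hxy
      have h2 := A.valuation.map_add ((x : L) * (q : L)) ((y : L) * (u : L))
      rw [h1, map_one, map_mul, map_mul] at h2
      have hx1 := (A.valuation_le_one_iff _).mpr (intCast_mem A x)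
      have hy1 := (A.valuation_le_one_iff _).mpr (intCast_mem A y)
      rcases le_max_iff.mp h2 with h3 | h3
      · exact absurd (h3.trans (mul_le_of_le_one_left' hx1))
          (not_le.mpr (valuation_prime_lt_one hA))
      · exact absurd (h3.trans (mul_le_of_le_one_left' hy1)) (not_le.mpr hlt)
    push_cast
    rw [map_mul, map_pow, hu1, mul_one, zpow_natCast]
  obtain ⟨z₁, h₁⟩ := hnat a.num.natAbs (by simpa using ha)
  obtain ⟨z₂, h₂⟩ := hnat a.den a.den_nz
  refine ⟨z₁ - z₂, ?_⟩
  have hnum : A.valuation (a.num : L) = A.valuation (a.num.natAbs : L) := by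
    rcases Int.natAbs_eq a.num with h | h
    · conv_lhs => rw [h]
      rw [Int.cast_natCast]
    · conv_lhs => rw [h]
      rw [Int.cast_neg, Valuation.map_neg, Int.cast_natCast]
  rw [Rat.cast_def, map_div₀, hnum, h₁, h₂,
    zpow_sub₀ ((Valuation.ne_zero_iff _).mpr (Nat.cast_ne_zero.mpr hq.ne_zero))]

/-- In an algebraic extension of `ℚ` the value group is rationally generated by `v(q)`. -/
theorem exists_zpow_of_mem (hA : A.LiesOverPrime q) (hq : q.Prime) (E : IntermediateField ℚ L)
    [FiniteDimensional ℚ E] {x : L} (hx : x ∈ E) (h0 : x ≠ 0) :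
    ∃ z : ℤ, A.valuation x ^ (Module.finrank ℚ E).factorial = A.valuation (q : L) ^ z := by
  set xE : E := ⟨x, hx⟩ with hxE
  have hint : IsIntegral ℚ xE := Algebra.IsIntegral.isIntegral xE
  set p := minpoly ℚ xE with hp
  have hrel : ∑ i ∈ p.support, (p.coeff i : L) * x ^ i = 0 := by
    have h := congrArg Subtype.val (minpoly.aeval ℚ xE)
    rw [← hp, Polynomial.aeval_eq_sum_range] at h
    rw [Finset.sum_subset (s₂ := Finset.range (p.natDegree + 1))
      Polynomial.supp_subset_range_natDegree_succ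
      (fun i _ hi => by rw [Polynomial.notMem_support_iff.mp hi]; simp)]
    simpa [Algebra.smul_def, hxE] using h
  have hne : p.support.Nonempty := Polynomial.support_nonempty.mpr (minpoly.ne_zero hint)
  obtain ⟨i, hi, hmax⟩ := Finset.exists_max_image p.support
    (fun i => A.valuation ((p.coeff i : L) * x ^ i)) hne
  obtain ⟨j, hj, hji, heq⟩ : ∃ j ∈ p.support, j ≠ i ∧
      A.valuation ((p.coeff j : L) * x ^ j) = A.valuation ((p.coeff i : L) * x ^ i) := by
    by_contra! hno
    have h1 := A.valuation.map_sum_eq_of_lt hi (fun j hj => by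
      rw [Finset.mem_sdiff, Finset.mem_singleton] at hj
      exact lt_of_le_of_ne (hmax j hj.1) (hno j hj.1 hj.2))
    rw [hrel, map_zero] at h1
    have hpi : (p.coeff i : L) ≠ 0 := by exact_mod_cast Polynomial.mem_support_iff.mp hi
    exact mul_ne_zero hpi (pow_ne_zero _ h0) ((Valuation.zero_iff _).mp h1.symm)
  obtain ⟨zi, hzi⟩ := exists_zpow_ratCast hA hq (Polynomial.mem_support_iff.mp hi)
  obtain ⟨zj, hzj⟩ := exists_zpow_ratCast hA hq (Polynomial.mem_support_iff.mp hj)
  rw [map_mul, map_mul, map_pow, map_pow, hzi, hzj] at heq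
  have hq0 : A.valuation (q : L) ≠ 0 :=
    (Valuation.ne_zero_iff _).mpr (Nat.cast_ne_zero.mpr hq.ne_zero)
  have hv0 : A.valuation x ≠ 0 := (Valuation.ne_zero_iff _).mpr h0
  have hkey : A.valuation x ^ ((j : ℤ) - i) = A.valuation (q : L) ^ (zi - zj) := by
    rw [zpow_sub₀ hv0, zpow_sub₀ hq0, zpow_natCast, zpow_natCast,
      div_eq_div_iff (pow_ne_zero _ hv0) (zpow_ne_zero _ hq0), mul_comm, heq]
  have hdeg : ∀ n ∈ p.support, n ≤ Module.finrank ℚ E := fun n hn =>
    (Polynomial.le_natDegree_of_mem_supp n hn).trans (minpoly.natDegree_le xE)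
  obtain ⟨r, hr⟩ : ((j : ℤ) - i) ∣ ((Module.finrank ℚ E).factorial : ℤ) := by
    rw [← Int.natAbs_dvd, Int.natCast_dvd_natCast]
    refine Nat.dvd_factorial (Int.natAbs_pos.mpr (by omega)) ?_
    have := hdeg i hi; have := hdeg j hj
    omega
  refine ⟨(zi - zj) * r, ?_⟩
  rw [← zpow_natCast, hr, zpow_mul, hkey, zpow_mul]

variable (A) in
/-- Series with bounded denominators. -/
def serBdd : Subring (LaurentSeries L) where
  carrier := {f | ∃ c ∈ A, c ≠ 0 ∧ c • f ∈ serInt A}
  mul_mem' := by
    rintro f g ⟨c, hc, hc0, hf⟩ ⟨d, hd, hd0, hg⟩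
    exact ⟨c * d, mul_mem hc hd, mul_ne_zero hc0 hd0, by
      rw [← ser_smul_mul_smul]; exact mul_mem hf hg⟩
  add_mem' := by
    rintro f g ⟨c, hc, hc0, hf⟩ ⟨d, hd, hd0, hg⟩
    refine ⟨c * d, mul_mem hc hd, mul_ne_zero hc0 hd0, ?_⟩
    rw [ser_smul_add]
    refine add_mem ?_ ?_
    · rw [mul_comm, ← ser_smul_smul]; exact smul_mem_serInt hd hf
    · rw [← ser_smul_smul]; exact smul_mem_serInt hc hg
  one_mem' := ⟨1, one_mem _, one_ne_zero, by rw [ser_one_smul]; exact one_mem _⟩
  zero_mem' := ⟨1, one_mem _, one_ne_zero, by rw [ser_smul_zero]; exact zero_mem _⟩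
  neg_mem' := by
    rintro f ⟨c, hc, hc0, hf⟩
    exact ⟨c, hc, hc0, by rw [ser_smul_neg]; exact neg_mem hf⟩

/-- Integral series have bounded denominators. -/
theorem serInt_le_serBdd {f : LaurentSeries L} (hf : f ∈ serInt A) : f ∈ serBdd A :=
  ⟨1, one_mem _, one_ne_zero, by rwa [ser_one_smul]⟩

theorem algebraMap_mem_serBdd (c : L) : algebraMap L (LaurentSeries L) c ∈ serBdd A := by
  rcases A.mem_or_inv_mem c with h | h
  · exact serInt_le_serBdd (algebraMap_mem_serInt h)
  · rcases eq_or_ne c 0 with rfl | hc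
    · rw [map_zero]; exact zero_mem _
    refine ⟨c⁻¹, h, inv_ne_zero hc, ?_⟩
    rw [Algebra.smul_def, ← map_mul, inv_mul_cancel₀ hc, map_one]
    exact one_mem _

variable [Algebra.IsAlgebraic ℚ L]

/-- Some positive power of a nonzero element has the valuation of an integral power of `q`. -/
theorem exists_exponent (hA : A.LiesOverPrime q) (hq : q.Prime) {x : L} (h0 : x ≠ 0) :
    ∃ e : ℕ, 0 < e ∧ ∃ z : ℤ, A.valuation x ^ e = A.valuation (q : L) ^ z := by
  have : FiniteDimensional ℚ (IntermediateField.adjoin ℚ {x}) :=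
    IntermediateField.adjoin.finiteDimensional (Algebra.IsAlgebraic.isAlgebraic x).isIntegral
  exact ⟨_, Nat.factorial_pos _, exists_zpow_of_mem hA hq _
    (IntermediateField.mem_adjoin_simple_self ℚ x) h0⟩

omit [Algebra.IsAlgebraic ℚ L] in
theorem zpow_le_zpow_iff_prime (hA : A.LiesOverPrime q) (hq : q.Prime) {m n : ℤ} :
    A.valuation (q : L) ^ m ≤ A.valuation (q : L) ^ n ↔ n ≤ m :=
  zpow_le_zpow_iff_right_of_lt_one₀ (zero_lt_iff.mpr ((Valuation.ne_zero_iff _).mpr
    (Nat.cast_ne_zero.mpr hq.ne_zero))) (valuation_prime_lt_one hA)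

/-- A bounded series with coefficients in a number field is scalable. -/
theorem isScalable_of_bdd (hA : A.LiesOverPrime q) (hq : q.Prime) {f : LaurentSeries L}
    (hf : f ∈ serBdd A) (hfin : f ∈ finCoeff L) (hf0 : f ≠ 0) : IsScalable A f := by
  obtain ⟨c, hcA, hc0, hcf⟩ := hf
  obtain ⟨E, hE, hcoef⟩ := mem_finCoeff.mp hfin
  obtain ⟨e, he, z, hz⟩ := exists_exponent hA hq hc0
  set D := (Module.finrank ℚ E).factorial with hD
  have hDpos : 0 < D := Nat.factorial_pos _
  -- Valuations of coefficients, to the power `D`, are powers of that of `q`, bounded below.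
  let P : ℤ → Prop := fun w => ∃ k, f.coeff k ≠ 0 ∧ A.valuation (f.coeff k) ^ D =
    A.valuation (q : L) ^ w
  have hbdd : ∀ w, P w → -(|z| * D) ≤ w := by
    rintro w ⟨k, hk, hw⟩
    have h1 : A.valuation (c * f.coeff k) ≤ 1 := by
      rw [A.valuation_le_one_iff, ← coeff_smul_series]
      exact mem_serInt.mp hcf k
    have h2 : A.valuation (q : L) ^ (z * D + w * e) ≤ A.valuation (q : L) ^ (0 : ℤ) := by
      rw [zpow_zero, zpow_add₀ ((Valuation.ne_zero_iff _).mpr (Nat.cast_ne_zero.mpr hq.ne_zero)),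
        zpow_mul, zpow_mul, ← hz, ← hw, zpow_natCast, zpow_natCast, ← pow_mul, ← pow_mul,
        mul_comm D e, ← mul_pow, ← map_mul]
      exact pow_le_one' h1 _
    rw [zpow_le_zpow_iff_prime hA hq] at h2
    have h3 : z ≤ |z| := le_abs_self z
    by_contra hlt
    push Not at hlt
    have h5 : 0 ≤ |z| * (D : ℤ) := by positivity
    have h6 : z * (D : ℤ) ≤ |z| * D := by gcongr
    nlinarith
  obtain ⟨k₁, hk₁⟩ : ∃ k, f.coeff k ≠ 0 := by
    by_contra! h
    exact hf0 (HahnSeries.ext (funext h))
  -- Divide by the coefficient of least exponent.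
  obtain ⟨w₀, ⟨k, hk, hw⟩, hleast⟩ := Int.exists_least_of_bdd ⟨_, hbdd⟩
    (let ⟨w, hw⟩ := exists_zpow_of_mem hA hq E (hcoef k₁) hk₁; ⟨w, k₁, hk₁, hw⟩)
  have hint : (f.coeff k)⁻¹ • f ∈ serInt A := by
    refine mem_serInt.mpr fun n => ?_
    rw [coeff_smul_series, ← A.valuation_le_one_iff]
    by_cases hn : f.coeff n = 0
    · simp [hn]
    obtain ⟨w, hwn⟩ := exists_zpow_of_mem hA hq E (hcoef n) hn
    refine (pow_le_one_iff hDpos.ne').mp ?_
    rw [map_mul, map_inv₀, mul_pow, inv_pow, hw, hwn,
      inv_mul_le_iff₀ (zero_lt_iff.mpr (hw ▸ pow_ne_zero _ ((Valuation.ne_zero_iff _).mpr hk))),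
      mul_one]
    exact (zpow_le_zpow_iff_prime hA hq).mpr (hleast w ⟨n, hn, hwn⟩)
  refine ⟨f.coeff k, hk, ⟨_, hint⟩, fun h0 => ?_, ?_⟩
  · have h1 := valuation_coeff_lt_one_of_serRed_eq_zero h0 k
    rw [coeff_smul_series, inv_mul_cancel₀ hk, map_one] at h1
    exact lt_irrefl _ h1
  · rw [ser_smul_smul, mul_inv_cancel₀ hk, ser_one_smul]

/-- If `c * xⁿ` is integral for all `n`, with `c ≠ 0`, then `x` is integral. -/
theorem mem_of_forall_pow (hA : A.LiesOverPrime q) (hq : q.Prime) {c x : L} (hc : c ≠ 0)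
    (h : ∀ n : ℕ, c * x ^ n ∈ A) : x ∈ A := by
  by_contra hx
  rw [← A.valuation_le_one_iff, not_le] at hx
  have hx0 : x ≠ 0 := by rintro rfl; simp at hx
  obtain ⟨e, he, z, hz⟩ := exists_exponent hA hq hx0
  obtain ⟨e', he', z', hz'⟩ := exists_exponent hA hq hc
  have hz0 : z < 0 := by
    by_contra hneg
    have h1 : A.valuation x ^ e ≤ A.valuation (q : L) ^ (0 : ℤ) := by
      rw [hz]; exact (zpow_le_zpow_iff_prime hA hq).mpr (not_lt.mp hneg)
    rw [zpow_zero] at h1
    exact absurd ((pow_le_one_iff he.ne').mp h1) (not_le.mpr hx)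
  set n : ℕ := z'.natAbs + 1 with hn
  have h2 : A.valuation (q : L) ^ (z' + z * n * e') ≤ A.valuation (q : L) ^ (0 : ℤ) := by
    rw [zpow_zero, zpow_add₀ ((Valuation.ne_zero_iff _).mpr (Nat.cast_ne_zero.mpr hq.ne_zero)),
      zpow_mul, zpow_mul, ← hz', ← hz, zpow_natCast, zpow_natCast, ← pow_mul, ← pow_mul,
      show A.valuation c ^ e' * A.valuation x ^ (e * (n * e')) =
        A.valuation (c * x ^ (e * n)) ^ e' by
          rw [map_mul, map_pow, mul_pow, ← pow_mul, mul_assoc],
      ]
    exact pow_le_one' ((A.valuation_le_one_iff _).mpr (h _)) _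
  rw [zpow_le_zpow_iff_prime hA hq] at h2
  have h4 : (1 : ℤ) ≤ e' := by exact_mod_cast he'
  have h5 : z' ≤ z'.natAbs := Int.le_natAbs
  have h6 : (n : ℤ) ≤ n * e' := le_mul_of_one_le_right (by positivity) h4
  have h7 : z * (n : ℤ) * e' ≤ -1 * ((n : ℤ) * e') := by
    rw [mul_assoc]; exact mul_le_mul_of_nonneg_right (by omega) (by positivity)
  have h8 : (n : ℤ) = z'.natAbs + 1 := by rw [hn]; push_cast; ring
  omega

theorem mem_serInt_of_almostIntegral (hA : A.LiesOverPrime q) (hq : q.Prime)
    {c x : LaurentSeries L} (hc : c ≠ 0) (h : ∀ n : ℕ, c * x ^ n ∈ serInt A) : x ∈ serInt A :=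
  mem_serInt.mpr <| Series.coeff_mem_of_almost_integral (R := A.toSubring)
    (fun _ _ hc' h' => mem_of_forall_pow hA hq hc' h') hc fun n => mem_serInt.mp (h n)

/-- A fraction of integral series satisfying a monic relation over `serInt A` is integral. -/
theorem mem_serInt_of_monic_rel (hA : A.LiesOverPrime q) (hq : q.Prime) {x d : LaurentSeries L}
    (hd : d ∈ serInt A) (hd0 : d ≠ 0) (hdx : d * x ∈ serInt A) {D : ℕ} {a : ℕ → LaurentSeries L}
    (ha : ∀ i, a i ∈ serInt A) (hrel : x ^ D + ∑ i ∈ Finset.range D, a i * x ^ i = 0) :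
    x ∈ serInt A := by
  refine mem_serInt_of_almostIntegral hA hq (c := d ^ D) (pow_ne_zero _ hd0) fun n => ?_
  induction n using Nat.strong_induction_on with
  | _ n ih =>
    rcases le_or_gt n D with hn | hn
    · obtain ⟨r, hr⟩ := Nat.exists_eq_add_of_le hn
      rw [hr, pow_add, show d ^ n * d ^ r * x ^ n = d ^ r * (d * x) ^ n by ring]
      exact mul_mem (pow_mem hd _) (pow_mem hdx _)
    · obtain ⟨r, hr⟩ := Nat.exists_eq_add_of_le hn.le
      rw [hr, pow_add, eq_neg_of_add_eq_zero_left hrel, neg_mul, Finset.sum_mul, mul_neg,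
        Finset.mul_sum]
      refine neg_mem (sum_mem fun i hi => ?_)
      rw [show d ^ D * (a i * x ^ i * x ^ r) = a i * (d ^ D * x ^ (i + r)) by ring]
      refine mul_mem (ha _) (ih _ ?_)
      have := Finset.mem_range.mp hi
      omega

/-- A fraction of bounded series satisfying a monic relation over `serBdd A` is bounded. -/
theorem mem_serBdd_of_monic_rel (hA : A.LiesOverPrime q) (hq : q.Prime) {x d : LaurentSeries L}
    (hd : d ∈ serBdd A) (hd0 : d ≠ 0) (hdx : d * x ∈ serBdd A) {D : ℕ} {a : ℕ → LaurentSeries L}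
    (ha : ∀ i < D, a i ∈ serBdd A) (hrel : x ^ D + ∑ i ∈ Finset.range D, a i * x ^ i = 0) :
    x ∈ serBdd A := by
  obtain ⟨c₁, hc₁, hc₁0, hcd⟩ := hd
  obtain ⟨c₂, hc₂, hc₂0, hcdx⟩ := hdx
  have hb : ∀ i : Fin D, ∃ c ∈ A, c ≠ 0 ∧ c • a i ∈ serInt A := fun i => ha i i.2
  choose cs hcs hcs0 hcsa using hb
  set γ : L := c₂ * ∏ i, cs i with hγ
  have hγA : γ ∈ A := mul_mem hc₂ (prod_mem fun i _ => hcs i)
  have hγ0 : γ ≠ 0 := mul_ne_zero hc₂0 (Finset.prod_ne_zero_iff.mpr fun i _ => hcs0 i)
  refine ⟨γ, hγA, hγ0, ?_⟩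
  refine mem_serInt_of_monic_rel hA hq (d := c₁ • d) hcd
    (by rw [Algebra.smul_def]; exact mul_ne_zero ((map_ne_zero _).mpr hc₁0) hd0) ?_ (D := D)
    (a := fun i => if i < D then γ ^ (D - i) • a i else 0) (fun i => ?_) ?_
  · rw [ser_smul_mul_smul]
    rw [show c₁ * γ = (c₁ * ∏ i, cs i) * c₂ by rw [hγ]; ring, ← ser_smul_smul]
    exact smul_mem_serInt (mul_mem hc₁ (prod_mem fun i _ => hcs i)) hcdx
  · split_ifs with hi
    · obtain ⟨r, hr⟩ := Finset.dvd_prod_of_mem cs (Finset.mem_univ (⟨i, hi⟩ : Fin D))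
      obtain ⟨t, ht⟩ : ∃ t ∈ A, γ ^ (D - i) = t * cs ⟨i, hi⟩ := by
        obtain ⟨s, hs⟩ := Nat.exists_eq_add_of_lt hi
        refine ⟨γ ^ s * c₂ * ∏ l ∈ Finset.univ.erase ⟨i, hi⟩, cs l, mul_mem (mul_mem
          (pow_mem hγA _) hc₂) (prod_mem fun l _ => hcs l), ?_⟩
        rw [show D - i = s + 1 by omega, pow_succ]
        conv_lhs => arg 2; rw [hγ, ← Finset.prod_erase_mul _ _ (Finset.mem_univ ⟨i, hi⟩)]
        ring
      rw [ht.2, ← ser_smul_smul]
      exact smul_mem_serInt ht.1 (hcsa ⟨i, hi⟩)
    · exact zero_mem _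
  · have h := congrArg (fun y => γ ^ D • y) hrel
    simp only [ser_smul_zero, ser_smul_add] at h
    rw [← h, ser_smul_pow, Algebra.smul_def (γ ^ D) (∑ i ∈ Finset.range D, a i * x ^ i),
      Finset.mul_sum]
    congr 1
    refine Finset.sum_congr rfl fun i hi => ?_
    have hi' := Finset.mem_range.mp hi
    rw [if_pos hi', ser_smul_pow, ser_smul_mul_smul, ← pow_add, Nat.sub_add_cancel hi'.le,
      Algebra.smul_def]

end FinCoeff

/-! ### Roots congruent to one -/

section Root

variable {A : ValuationSubring L}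

/-- In an algebraically closed field an element congruent to one has an `m`-th root congruent
to one, `m` a unit. -/
theorem exists_root_congr_one {m : ℕ} (hm : IsUnit (m : A)) [IsAlgClosed L] {b : A}
    (hb : residue A b = 1) : ∃ a : A, a ^ m = b ∧ residue A a = 1 := by
  have hm0 : m ≠ 0 := by rintro rfl; simp at hm
  set p : Polynomial L := Polynomial.X ^ m - Polynomial.C (b : L) with hp
  -- split `X ^ m - b` into linear factors and evaluate at one
  have hsplit : p = (Polynomial.C p.leadingCoeff *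
      (p.roots.map fun t => Polynomial.X - Polynomial.C t).prod) :=
    ((IsAlgClosed.splits p).eq_prod_roots).trans rfl
  have hlc : p.leadingCoeff = 1 := Polynomial.leadingCoeff_X_pow_sub_C (Nat.pos_of_ne_zero hm0)
  have hroot : ∀ t ∈ p.roots, t ^ m = (b : L) := fun t ht => by
    have := (Polynomial.mem_roots'.mp ht).2
    simpa [hp, sub_eq_zero] using this
  have hA' : ∀ t ∈ p.roots, t ∈ A := fun t ht => by
    rw [← A.valuation_le_one_iff]
    refine (pow_le_one_iff hm0).mp ?_
    rw [← map_pow, hroot t ht]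
    exact (A.valuation_le_one_iff _).mpr b.2
  by_contra! hno
  have h1 : (p.eval 1) = (p.roots.map fun t => 1 - t).prod := by
    conv_lhs => rw [hsplit, hlc]
    simp [Polynomial.eval_multiset_prod, Multiset.map_map]
  have h2 : A.valuation (p.eval 1) = 1 := by
    rw [h1, map_multiset_prod, Multiset.map_map]
    refine Multiset.prod_eq_one fun v hv => ?_
    obtain ⟨t, ht, rfl⟩ := Multiset.mem_map.mp hv
    refine le_antisymm ((A.valuation_le_one_iff _).mpr (sub_mem (one_mem _) (hA' t ht)))
      (not_lt.mp fun hlt => ?_)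
    refine hno ⟨t, hA' t ht⟩ (Subtype.ext (by simpa using hroot t ht)) ?_
    have h3 : residue A (1 - ⟨t, hA' t ht⟩ : A) = 0 := by
      rw [residue_eq_zero_iff]
      exact (A.valuation_lt_one_iff _).mpr hlt
    rwa [map_sub, map_one, sub_eq_zero, eq_comm] at h3
  have h4 : residue A (1 - b : A) = 0 := by rw [map_sub, map_one, hb, sub_self]
  rw [residue_eq_zero_iff] at h4
  have h5 := (A.valuation_lt_one_iff _).mp h4
  rw [hp] at h2
  simp at h2
  exact absurd h2 h5.ne

/-- Correct the next coefficient of an approximate `m`-th root. -/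
private theorem exists_correct_coeff {m : ℕ} (hm0 : m ≠ 0) {a₀ : A}
    (hu : IsUnit ((m : A) * a₀ ^ (m - 1))) (f : PowerSeries A) (n : ℕ) (h : PowerSeries A)
    (hh0 : PowerSeries.constantCoeff h = a₀)
    (hh : ∀ k ≤ n, PowerSeries.coeff k (h ^ m) = PowerSeries.coeff k f) :
    ∃ h' : PowerSeries A, PowerSeries.constantCoeff h' = a₀ ∧
      (∀ k ≤ n, PowerSeries.coeff k h' = PowerSeries.coeff k h) ∧
      (∀ k ≤ n + 1, PowerSeries.coeff k (h' ^ m) = PowerSeries.coeff k f) := by
  -- Add `a X ^ (n + 1)` with `m a₀ ^ (m - 1) a` the missing coefficient.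
  obtain ⟨a, ha⟩ : ∃ a, (m : A) * a₀ ^ (m - 1) * a =
      PowerSeries.coeff (n + 1) f - PowerSeries.coeff (n + 1) (h ^ m) :=
    ⟨(hu.unit⁻¹ : Aˣ) * (PowerSeries.coeff (n + 1) f - PowerSeries.coeff (n + 1) (h ^ m)),
      by rw [← mul_assoc, IsUnit.mul_val_inv, one_mul]⟩
  set T : PowerSeries A := PowerSeries.C a * PowerSeries.X ^ (n + 1) with hT
  refine ⟨h + T, ?_, fun k hk => ?_, ?_⟩
  · simp [hT, hh0]
  · rw [map_add, hT, PowerSeries.coeff_C_mul, PowerSeries.coeff_X_pow, if_neg (by omega)]
    simp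
  intro k hk
  have hgen : ∀ s : ℕ, ∃ R : PowerSeries A,
      (h + T) ^ (s + 1) = h ^ (s + 1) + ((s + 1 : ℕ) : PowerSeries A) * h ^ s * T + T ^ 2 * R := by
    intro s
    induction s with
    | zero => exact ⟨0, by simp⟩
    | succ s ih =>
      obtain ⟨R, hR⟩ := ih
      refine ⟨R * (h + T) + ((s + 1 : ℕ) : PowerSeries A) * h ^ s, ?_⟩
      rw [pow_succ, hR]
      push_cast
      ring
  -- Only the linear term of the binomial expansion reaches degree `n + 1`.
  have hexp : ∃ R : PowerSeries A,
      (h + T) ^ m = h ^ m + (m : PowerSeries A) * h ^ (m - 1) * T + T ^ 2 * R := by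
    obtain ⟨m', rfl⟩ := Nat.exists_eq_succ_of_ne_zero hm0
    exact hgen m'
  obtain ⟨R, hR⟩ := hexp
  have hX2 : PowerSeries.coeff k (T ^ 2 * R) = 0 := by
    rw [show T ^ 2 * R = PowerSeries.X ^ (2 * (n + 1)) * (PowerSeries.C a ^ 2 * R) by
      rw [hT, mul_pow, ← pow_mul, mul_comm 2]; ring,
      PowerSeries.coeff_X_pow_mul', if_neg (by omega)]
  have hX1 : PowerSeries.coeff k ((m : PowerSeries A) * h ^ (m - 1) * T) =
      if n + 1 ≤ k then (m : A) * a₀ ^ (m - 1) * a else 0 := by
    rw [show (m : PowerSeries A) * h ^ (m - 1) * T =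
      PowerSeries.X ^ (n + 1) * (PowerSeries.C ((m : A) * a) * h ^ (m - 1)) by
        rw [hT, map_mul, map_natCast]; ring, PowerSeries.coeff_X_pow_mul']
    split_ifs with hle
    · rw [show k - (n + 1) = 0 by omega, PowerSeries.coeff_zero_eq_constantCoeff, map_mul,
        map_pow, PowerSeries.constantCoeff_C, hh0]
      ring
    · rfl
  rw [hR, map_add, map_add, hX2, hX1, add_zero]
  rcases Nat.lt_or_ge k (n + 1) with hlt | hge
  · rw [if_neg (by omega), add_zero, hh k (by omega)]
  · rw [if_pos hge, show k = n + 1 by omega, ha]; ring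

/-- Roots of power series congruent to one. -/
theorem exists_root_powerSeries {m : ℕ} (hm : IsUnit (m : A)) [IsAlgClosed L] (f : PowerSeries A)
    (hf : residue A (PowerSeries.constantCoeff f) = 1) :
    ∃ h : PowerSeries A, h ^ m = f ∧ residue A (PowerSeries.constantCoeff h) = 1 := by
  have hm0 : m ≠ 0 := by rintro rfl; simp at hm
  obtain ⟨a₀, ha₀, ha₀1⟩ := exists_root_congr_one hm hf
  -- correct the coefficients one at a time
  have hu : IsUnit ((m : A) * a₀ ^ (m - 1)) := by
    refine hm.mul (IsUnit.pow _ ?_)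
    rw [← residue_ne_zero_iff_isUnit, ha₀1]
    exact one_ne_zero
  have step := exists_correct_coeff hm0 hu f
  choose! next hnext0 hnext1 hnext2 using step
  let hs : ℕ → PowerSeries A := fun n => Nat.rec (PowerSeries.C a₀) (fun i prev => next i prev) n
  have hprop : ∀ n, PowerSeries.constantCoeff (hs n) = a₀ ∧
      ∀ k ≤ n, PowerSeries.coeff k (hs n ^ m) = PowerSeries.coeff k f := by
    intro n
    induction n with
    | zero =>
      refine ⟨PowerSeries.constantCoeff_C _, fun k hk => ?_⟩
      rw [Nat.le_zero.mp hk, PowerSeries.coeff_zero_eq_constantCoeff, map_pow]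
      exact (congrArg (· ^ m) (PowerSeries.constantCoeff_C a₀)).trans ha₀
    | succ n ih => exact ⟨hnext0 n _ ih.1 ih.2, hnext2 n _ ih.1 ih.2⟩
  have hstable : ∀ n, ∀ i, ∀ k ≤ n, PowerSeries.coeff k (hs (n + i)) = PowerSeries.coeff k
      (hs n) := by
    intro n i
    induction i with
    | zero => intro k _; rfl
    | succ i ih =>
      intro k hk
      exact (hnext1 (n + i) _ (hprop _).1 (hprop _).2 k (by omega)).trans (ih k hk)
  refine ⟨PowerSeries.mk fun n => PowerSeries.coeff n (hs n), PowerSeries.ext fun n => ?_, ?_⟩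
  · rw [← (hprop n).2 n le_rfl]
    have htr : PowerSeries.trunc (n + 1) (PowerSeries.mk fun n => PowerSeries.coeff n (hs n)) =
        PowerSeries.trunc (n + 1) (hs n) := by
      ext k
      rw [PowerSeries.coeff_trunc, PowerSeries.coeff_trunc]
      split_ifs with hk
      · obtain ⟨i, hi⟩ := Nat.exists_eq_add_of_le (Nat.lt_succ_iff.mp hk)
        rw [PowerSeries.coeff_mk, hi, hstable k i k le_rfl]
      · rfl
    have h1 := congrArg (fun p : Polynomial A => (PowerSeries.trunc (n + 1)
      ((p : PowerSeries A) ^ m)).coeff n) htr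
    simp only [PowerSeries.trunc_trunc_pow, PowerSeries.coeff_trunc, Nat.lt_succ_self,
      if_true] at h1
    exact h1
  · rw [← PowerSeries.coeff_zero_eq_constantCoeff, PowerSeries.coeff_mk,
      PowerSeries.coeff_zero_eq_constantCoeff, (hprop 0).1, ha₀1]

end Root

end Fermat.Agent.RedTorsion

end
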