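import Fermat.Agent.RedTorsion.GenusBound
import Fermat.Agent.RedTorsion.CuspEmbeddings
import Fermat.Agent.FF.Along
import Fermat.Agent.FF.GenusEq
import Fermat.Agent.Genus.Main
import Fermat.Prelude.Def_ModularCurve_ArithmeticGalois

/-!
# The genus does not drop modulo `ℓ`

For `M ∈ {4, 9}` dividing a level `N` prime to the residue characteristic, the genus of `X₀(N)`
over `ℚ̄` is at most the genus of the field of level `N` over the residue field: the trace dual of
the level `M` field, pulled back, gives a lower bound matching the genus formula.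
-/

set_option autoImplicit false

noncomputable section

open Polynomial AlgebraicCurve IntermediateField ModularCurve
open scoped Classical

namespace Fermat.Agent.RedTorsion

open Fermat.Agent.FF

attribute [local instance 10000] SubalgebraClass.toAlgebra HahnSeries.powerSeriesAlgebra

section Generic

variable {K F F' : Type*} [Field K] [Field F] [Field F'] [Algebra K F] [Algebra K F']
  [Algebra F F'] [IsScalarTower K F F'] [FiniteDimensional F F'] [Algebra.IsSeparable F F']
  [IsAlgClosed K] [IsFunctionField K F] [IsFunctionField K F']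

theorem degree_sum_single {E : Type*} [Field E] [Algebra K E] [IsFunctionField K E]
    (s : Finset (Place K E)) :
    Divisor.degree (∑ P ∈ s, Finsupp.single P (1 : ℤ)) = s.card := by
  rw [map_sum]
  simp [Divisor.degree_single, FF.deg_eq_one]

/-- Lower bound for the genus of a cover in terms of the poles of `x`. -/
theorem le_genus_of_poles {x : F} (hx : Transcendental K x) [FiniteDimensional K⟮x⟯ F]
    [Algebra.IsSeparable K⟮x⟯ F] [FiniteDimensional K⟮algebraMap F F' x⟯ F']
    [Algebra.IsSeparable K⟮algebraMap F F' x⟯ F'] :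
    (Module.finrank F F' : ℤ) *
        (2 * (Module.finrank K⟮x⟯ F : ℤ) - 2 + Nat.card {Q : Place K F // Q.ord x < 0}) -
      Nat.card {P : Place K F' // P.ord (algebraMap F F' x) < 0} ≤
      2 * (genusFF K F' : ℤ) - 2 + 2 * Module.finrank K⟮algebraMap F F' x⟯ F' := by
  obtain ⟨δ, hδ0, hdual, hdeg⟩ := exists_dual_divisor (K := K) hx
  set s := (finite_poles (K := K) x).toFinset with hs
  set s' := (finite_poles (K := K) (algebraMap F F' x)).toFinset with hs'
  have hcard : (Nat.card {Q : Place K F // Q.ord x < 0} : ℤ) = s.card := by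
    rw [Nat.subtype_card s fun Q => by simp [hs]]
  have hcard' : (Nat.card {P : Place K F' // P.ord (algebraMap F F' x) < 0} : ℤ) = s'.card := by
    rw [Nat.subtype_card s' fun Q => by simp [hs']]
  set D : Divisor K F := ∑ Q ∈ s, Finsupp.single Q 1 with hD
  set D' : Divisor K F' := ∑ P ∈ s', Finsupp.single P 1 with hD'
  have hDv : ∀ Q, D Q = if Q.ord x < 0 then 1 else 0 := fun Q => by
    rw [hD, Finsupp.finsetSum_apply]
    simp only [Finsupp.single_apply, Finset.sum_ite_eq']
    simp [hs]
  have hDv' : ∀ P, D' P = if P.ord (algebraMap F F' x) < 0 then 1 else 0 := fun P => by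
    rw [hD', Finsupp.finsetSum_apply]
    simp only [Finsupp.single_apply, Finset.sum_ite_eq']
    simp [hs']
  have h := le_genus_of_tower (F' := F') hx hdual (Divisor.pullback F' (δ + D) - D') fun P => by
    have he := e_pos (K := K) (F := F) P
    have hiff : P.ord (algebraMap F F' x) < 0 ↔ (P.restrict F).ord x < 0 := by
      rw [P.ord_restrict (F := F)]
      constructor <;> intro h <;> nlinarith
    rw [Finsupp.sub_apply, Divisor.pullback_apply, Finsupp.add_apply, hDv, hDv']
    by_cases hP : (P.restrict F).ord x < 0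
    · rw [if_pos hP, if_pos (hiff.mpr hP)]
    · rw [if_neg hP, if_neg (fun h => hP (hiff.mp h))]
      linarith
  rw [map_sub, Divisor.degree_pullback, map_add, hD, hD', degree_sum_single, degree_sum_single] at h
  rw [hcard, hcard']
  nlinarith

end Generic

/-- Lower bound for the genus of a cover, for an embedding of function fields. -/
theorem le_genus_of_poles_along {K F F' : Type*} [Field K] [Field F] [Field F'] [Algebra K F]
    [Algebra K F'] [IsAlgClosed K] [IsFunctionField K F] [IsFunctionField K F'] (φ : F →ₐ[K] F')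
    {x : F} (hx : Transcendental K x) [FiniteDimensional K⟮x⟯ F] [Algebra.IsSeparable K⟮x⟯ F]
    [FiniteDimensional K⟮φ x⟯ F'] [Algebra.IsSeparable K⟮φ x⟯ F'] :
    ∃ d : ℕ, Module.finrank K⟮φ x⟯ F' = Module.finrank K⟮x⟯ F * d ∧
      (d : ℤ) * (2 * (Module.finrank K⟮x⟯ F : ℤ) - 2 + Nat.card {Q : Place K F // Q.ord x < 0}) -
        Nat.card {P : Place K F' // P.ord (φ x) < 0} ≤
        2 * (genusFF K F' : ℤ) - 2 + 2 * Module.finrank K⟮φ x⟯ F' := by
  let _ : Algebra F F' := φ.toRingHom.toAlgebra
  have : FiniteDimensional F F' := finiteAlong φ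
  have hx' : algebraMap F F' x = φ x := rfl
  have : FiniteDimensional K⟮algebraMap F F' x⟯ F' := by rw [hx']; infer_instance
  have : Algebra.IsSeparable K⟮algebraMap F F' x⟯ F' := by rw [hx']; infer_instance
  have heq : K⟮x⟯.map (IsScalarTower.toAlgHom K F F') = K⟮algebraMap F F' x⟯ := by
    rw [adjoin_map, Set.image_singleton]; rfl
  let e : K⟮x⟯ ≃+* K⟮algebraMap F F' x⟯ :=
    ((K⟮x⟯.equivMap (IsScalarTower.toAlgHom K F F')).trans
      (IntermediateField.equivOfEq heq)).toRingEquiv
  have : Algebra.IsSeparable K⟮x⟯ F' :=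
    Algebra.IsSeparable.of_equiv_equiv e.symm (RingEquiv.refl _) (RingHom.ext fun a =>
      congrArg Subtype.val (e.apply_symm_apply a))
  have : Algebra.IsSeparable F F' := Algebra.isSeparable_tower_top_of_isSeparable K⟮x⟯ F _
  refine ⟨Module.finrank F F', ?_, ?_⟩
  · exact (finite_and_finrank_adjoin_algebraMap (F' := F') hx).2
  · exact le_genus_of_poles (F' := F') hx

section Numerics

/-- A multiple of `4` or `9` has no elliptic points. -/
theorem no_root_sq_add_one {n : ℕ} {M : ℕ} (hM : M = 4 ∨ M = 9) (hMn : M ∣ n) :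
    nuTwo n = 0 ∧ nuThree n = 0 := by
  have key : ∀ y : ZMod M, y ^ 2 + 1 ≠ 0 ∧ y ^ 2 + y + 1 ≠ 0 := by
    rcases hM with rfl | rfl <;> decide
  refine ⟨?_, ?_⟩ <;>
  · refine Nat.card_eq_zero.mpr (Or.inl ⟨fun ⟨y, hy⟩ => ?_⟩)
    have h := congrArg (ZMod.castHom hMn (ZMod M)) hy
    simp only [map_add, map_pow, map_one, map_zero] at h
    first
      | exact (key _).1 h
      | exact (key _).2 h

theorem dedekindPsi_cuspCount_small :
    (dedekindPsi 4 = 6 ∧ cuspCount 4 = 3) ∧ (dedekindPsi 9 = 12 ∧ cuspCount 9 = 4) := by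
  have h4 : Nat.divisors 4 = {1, 2, 4} := by decide
  have h9 : Nat.divisors 9 = {1, 3, 9} := by decide
  refine ⟨⟨?_, ?_⟩, ?_, ?_⟩
  · rw [show (4 : ℕ) = 2 * (2 * 1) from rfl,
      Gamma0.dedekindPsi_mul_of_dvd Nat.prime_two (by norm_num),
      Gamma0.dedekindPsi_mul_of_not_dvd Nat.prime_two (by norm_num), dedekindPsi_one]
  · simp [cuspCount, h4]
  · rw [show (9 : ℕ) = 3 * (3 * 1) from rfl, Gamma0.dedekindPsi_mul_of_dvd Nat.prime_three
      (by norm_num),
      Gamma0.dedekindPsi_mul_of_not_dvd Nat.prime_three (by norm_num), dedekindPsi_one]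
  · simp [cuspCount, h9]; decide

end Numerics

/-- The genus does not drop modulo `ℓ` when `ℓ` does not divide the level and `4` or `9` does. -/
theorem genus_le {N : ℕ} [NeZero N] {M : ℕ} (hM : M = 4 ∨ M = 9) (hMN : M ∣ N)
    {A : ValuationSubring (AlgebraicClosure ℚ)} [IsAlgClosed (IsLocalRing.ResidueField A)]
    (hNA : (N : IsLocalRing.ResidueField A) ≠ 0) :
    genusFF (AlgebraicClosure ℚ) (modularFunctionFieldBar N) ≤
      genusFF (IsLocalRing.ResidueField A)
        (modularFunctionFieldFullC (IsLocalRing.ResidueField A) N) := by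
  set κ := IsLocalRing.ResidueField A
  have : NeZero M := ⟨by rcases hM with rfl | rfl <;> norm_num⟩
  have hMA : (M : κ) ≠ 0 := by
    obtain ⟨t, rfl⟩ := hMN
    exact fun h => hNA (by rw [Nat.cast_mul, h, zero_mul])
  have := isFunctionField_full (K := κ) (N := N) (F := modularFunctionFieldFullC κ N) rfl hNA
  have := isFunctionField_full (K := κ) (N := M) (F := modularFunctionFieldFullC κ M) rfl hMA
  have := finiteDimensional_jF (K := κ) (N := N) (F := modularFunctionFieldFullC κ N) rfl hNA
  have := finiteDimensional_jF (K := κ) (N := M) (F := modularFunctionFieldFullC κ M) rfl hMA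
  have := isSeparable_jF (K := κ) (N := N) (F := modularFunctionFieldFullC κ N) rfl hNA
  have := isSeparable_jF (K := κ) (N := M) (F := modularFunctionFieldFullC κ M) rfl hMA
  let φ : modularFunctionFieldFullC κ M →ₐ[κ] modularFunctionFieldFullC κ N :=
    IntermediateField.inclusion (full_degeneracyC_le κ hMN)
  have hxN : φ (jF (K := κ) (N := M) (F := modularFunctionFieldFullC κ M) rfl) =
      jF (K := κ) (N := N) (F := modularFunctionFieldFullC κ N) rfl := Subtype.ext rfl
  have : FiniteDimensional
      κ⟮φ (jF (K := κ) (N := M) (F := modularFunctionFieldFullC κ M) rfl)⟯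
      (modularFunctionFieldFullC κ N) := by rw [hxN]; infer_instance
  have : Algebra.IsSeparable
      κ⟮φ (jF (K := κ) (N := M) (F := modularFunctionFieldFullC κ M) rfl)⟯
      (modularFunctionFieldFullC κ N) := by rw [hxN]; infer_instance
  obtain ⟨d, hmul, h⟩ := le_genus_of_poles_along φ
    (transcendental_jF (K := κ) (N := M) (F := modularFunctionFieldFullC κ M) rfl)
  rw [hxN] at h hmul
  rw [natCard_poles_residue hNA, natCard_poles_residue hMA] at h
  rw [finrank_jF (K := κ) (N := N) (F := modularFunctionFieldFullC κ N) rfl hNA,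
    finrank_jF (K := κ) (N := M) (F := modularFunctionFieldFullC κ M) rfl hMA,
    ModFun.natCard_coset, ModFun.natCard_coset] at hmul
  rw [finrank_jF (K := κ) (N := N) (F := modularFunctionFieldFullC κ N) rfl hNA,
    finrank_jF (K := κ) (N := M) (F := modularFunctionFieldFullC κ M) rfl hMA,
    ModFun.natCard_coset, ModFun.natCard_coset] at h
  -- the genus formula in characteristic zero
  obtain ⟨h2, h3⟩ := no_root_sq_add_one hM hMN
  have hg := Genus.genus_eq_genusFormula N
  rw [genus_eq_genusFF, genusFormula, h2, h3, hmul] at hg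
  have hgN : (12 : ℤ) * genusFF (AlgebraicClosure ℚ) (modularFunctionFieldBar N) =
      12 + (dedekindPsi M * d : ℕ) - 6 * cuspCount N := by
    have : (12 : ℚ) * (genusFF (AlgebraicClosure ℚ) (modularFunctionFieldBar N) : ℚ) =
        12 + ((dedekindPsi M * d : ℕ) : ℚ) - 6 * cuspCount N := by
      rw [hg]; push_cast; ring
    exact_mod_cast this
  rw [hmul] at h
  obtain ⟨⟨p4, c4⟩, p9, c9⟩ := dedekindPsi_cuspCount_small
  change genusFF (AlgebraicClosure ℚ) (modularFunctionFieldBar N) ≤
    genusFF κ (modularFunctionFieldFullC κ N)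
  rcases hM with rfl | rfl
  · rw [p4] at h hgN
    rw [c4] at h
    push_cast at h hgN
    omega
  · rw [p9] at h hgN
    rw [c9] at h
    push_cast at h hgN
    omega

end Fermat.Agent.RedTorsion

end
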