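import Fermat.Agent.RedTorsion.Moving
import Fermat.Agent.RedTorsion.SeriesField
import Fermat.Agent.FiniteFlat.Instance

/-!
# Places of `X₀(N)` with integral `j`

A place reducing away from the poles of `j` has integral `j`-invariant; functions whose poles are
among finitely many such places have bounded expansions without polar part.

The namespace is `FiniteFlat.Torsion`, shared with `RedTorsion/InjTorsion`.
-/

set_option autoImplicit false

noncomputable section

open IsLocalRing AlgebraicCurve ModularCurve
open Fermat.Agent.Arith Fermat.Agent.FF Fermat.Agent.RedTorsion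
open Fermat.Agent.EichlerShimura (hFb)
open scoped Classical

attribute [local instance 2000] SubalgebraClass.toAlgebra HahnSeries.powerSeriesAlgebra

namespace Fermat.Agent.FiniteFlat.Torsion

variable {A : ValuationSubring QBar} {N : ℕ} [NeZero N] (hNA : (N : ResidueField A) ≠ 0)
  [IsFunctionField QBar (modularFunctionFieldBar N)]
  [IsFunctionField (ResidueField A) (modularFunctionFieldFullC (ResidueField A) N)]

local notation "Fb" => modularFunctionFieldBar N
local notation "Fk" => modularFunctionFieldFullC (ResidueField A) N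
local notation "jb" => jF (K := QBar) (N := N) (F := modularFunctionFieldBar N) hFb
local notation "jk" => jF (K := ResidueField A) (N := N)
  (F := modularFunctionFieldFullC (ResidueField A) N) rfl
/-- The good reduction at `A`, with the implicit arguments given to ease elaboration. -/
local notation "gRed" => goodRed (A := A) (N := N) hNA

include hNA in
omit [IsFunctionField QBar ↥Fb]
    [IsFunctionField (ResidueField ↥A) ↥(modularFunctionFieldFullC (ResidueField ↥A) N)] in
/-- `j` lifts to a lattice element whose reduction is `j`. -/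
theorem exists_lift_j : ∃ g : (gRed).S, (g : Fb) = jb ∧
    redF (gRed).toRedLattice g = jk := by
  have hy : coeffMap A.subtype (jqModC A) ∈ Fb := by
    rw [coeffMap_jqModC]; exact (jb : Fb).2
  obtain ⟨hm, hr⟩ := seriesCompat hNA (jqModC A) hy
  exact ⟨⟨_, hm⟩, Subtype.ext (coeffMap_jqModC A.subtype),
    Subtype.ext (hr.trans (coeffMap_jqModC (residue A)))⟩

include hNA in
/-- The reduced `j` has the same degree of poles as `j`. -/
theorem degree_poles_j :
    Divisor.degree (poles QBar jb) = Divisor.degree (poles (ResidueField A) jk) := by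
  rw [degree_poles (transcendental_jF (F := Fb) hFb),
    degree_poles (transcendental_jF (K := ResidueField A) (N := N) (F := Fk) rfl),
    finrank_residue_j hNA]

/-- The lift `j - c`. -/
theorem exists_lift_sub (c : A) :
    ∃ g : (gRed).S, (g : Fb) = jb - algebraMap QBar Fb (c : QBar) ∧
      redF (gRed).toRedLattice g = jk - algebraMap (ResidueField A) Fk (residue A c) ∧
      redF (gRed).toRedLattice g ≠ 0 ∧
      Divisor.degree (poles QBar (g : Fb)) =
        Divisor.degree (poles (ResidueField A) (redF (gRed).toRedLattice g)) := by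
  obtain ⟨g, hg, hgr⟩ := exists_lift_j hNA
  have e1 : ((g - intConst (gRed).toRedLattice c : (gRed).S) : Fb) =
      jb - algebraMap QBar Fb (c : QBar) := by rw [AddSubgroupClass.coe_sub, coe_intConst, hg]
  have e2 : redF (gRed).toRedLattice (g - intConst (gRed).toRedLattice c) =
      jk - algebraMap (ResidueField A) Fk (residue A c) := by
    rw [map_sub, redF_intConst, hgr]
  have hp : ∀ {K E : Type} [Field K] [Field E] [Algebra K E] [IsFunctionField K E] (x : E) (a : K),
      poles K (x - algebraMap K E a) = poles K x := by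
    intro K E _ _ _ _ x a
    ext v
    rw [poles_apply, poles_apply]
    by_cases hv : v.ord x < 0
    · rw [sub_eq_add_neg, ← map_neg, (ord_add_eq_left v (fun e => by simp [e] at hv)
        (Or.inr (show v.ord x < v.ord (algebraMap K E (-a)) by rwa [FF.ord_algebraMap]))).2]
    · have h1 : x - algebraMap K E a ∈ ordGe v 0 :=
        sub_mem (mem_ordGe_of_le v (not_lt.mp hv)) (mem_ordGe_of_le v (by rw [FF.ord_algebraMap]))
      rcases (mem_ordGe v).mp h1 with e | e
      · rw [e, Place.ord_zero]; omega
      · omega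
  refine ⟨_, e1, e2, ?_, ?_⟩
  · rw [e2]
    exact fun e => transcendental_jF (K := ResidueField A) (N := N) (F := Fk) rfl
      (sub_eq_zero.mp e ▸ isAlgebraic_algebraMap _)
  · rw [e1, e2, hp, hp, degree_poles_j hNA]

/-- There is a place whose reduction has `j = t`. -/
theorem exists_place_over (t : ResidueField A) :
    ∃ v : Place QBar Fb,
      0 < (redPlace (gRed) v).ord (jk - algebraMap (ResidueField A) Fk t) := by
  obtain ⟨c, rfl⟩ := residue_surjective t
  obtain ⟨g, hg, hgr, hg0, hdeg⟩ := exists_lift_sub hNA c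
  have ht : Transcendental QBar (jb - algebraMap QBar Fb (c : QBar))⁻¹ := fun e => by
    have e1 := e.inv.add (isAlgebraic_algebraMap (c : QBar))
    rw [inv_inv, sub_add_cancel] at e1
    exact transcendental_jF (F := Fb) hFb e1
  obtain ⟨v, hv⟩ := exists_ord_neg_of_transcendental ht
  rw [v.ord_inv] at hv
  refine ⟨v, hgr ▸ ord_redPlace_pos (gRed) g hg0 hdeg (v := v) ?_⟩
  rw [hg]; omega

/-- A place reducing away from the poles of `j` has integral `j`. -/
theorem exists_value {v : Place QBar Fb} (hv : 0 ≤ (redPlace (gRed) v).ord jk) :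
    ∃ c : A, 0 < v.ord (jb - algebraMap QBar Fb (c : QBar)) ∧ 0 ≤ v.ord jb := by
  obtain ⟨g, hg, hgr⟩ := exists_lift_j hNA
  have hgr0 : redF (gRed).toRedLattice g ≠ 0 := by
    rw [hgr]
    exact fun e => transcendental_jF (K := ResidueField A) (N := N) (F := Fk) rfl
      (e ▸ isAlgebraic_zero)
  have hpoles : redDiv (gRed) (poles QBar jb) = poles (ResidueField A) jk := by
    rw [← hg, RedTorsion.redDiv_poles (gRed) g hgr0
      (by rw [hg, hgr]; exact degree_poles_j hNA), hgr]
  -- The reduction of the polar divisor of `j` is that of the reduction, so `j` is integral at `v`.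
  have hj : 0 ≤ v.ord jb := by
    by_contra hneg
    have := le_redDiv_apply (gRed) (poles_nonneg jb) v
    rw [hpoles, poles_apply, poles_apply] at this
    omega
  obtain ⟨c, hc⟩ := exists_ord_sub_pos v (transcendental_jF (F := Fb) hFb) hj
  by_cases hcA : c ∈ A
  · exact ⟨⟨c, hcA⟩, hc, hj⟩
  -- If its value `c` were not integral, `c⁻¹ j - 1` would reduce to `-1` though it vanishes at `v`.
  exfalso
  have hc0 : c ≠ 0 := fun e => hcA (e ▸ zero_mem A)
  have hi : c⁻¹ ∈ A := (A.mem_or_inv_mem c).resolve_left hcA
  have hir : residue A ⟨c⁻¹, hi⟩ = 0 := by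
    rw [EichlerShimura.residue_eq_zero_iff_inv (by simpa using hc0)]
    show (c⁻¹)⁻¹ ∉ A
    rwa [inv_inv]
  set u : (gRed).S := intConst (gRed).toRedLattice ⟨c⁻¹, hi⟩ * g - 1 with hu
  have hu1 : redF (gRed).toRedLattice u = -1 := by
    rw [hu, map_sub, map_mul, redF_intConst, hir, map_zero, zero_mul, map_one, zero_sub]
  have hu2 : (u : Fb) = algebraMap QBar Fb c⁻¹ * (jb - algebraMap QBar Fb c) := by
    rw [hu, AddSubgroupClass.coe_sub, MulMemClass.coe_mul, coe_intConst, hg,
      OneMemClass.coe_one, mul_sub, ← map_mul, inv_mul_cancel₀ hc0, map_one]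
  have hne : jb - algebraMap QBar Fb c ≠ 0 := fun e => by simp [e] at hc
  have hnn : 0 ≤ div QBar (u : Fb) + poles QBar jb := Finsupp.le_def.mpr fun w => by
    rw [Finsupp.coe_zero, Pi.zero_apply, Finsupp.add_apply, div_apply, poles_apply, hu2,
      w.ord_mul ((_root_.map_ne_zero _).mpr (inv_ne_zero hc0)) hne, FF.ord_algebraMap, zero_add]
    have : jb - algebraMap QBar Fb c ∈ ordGe w (min 0 (w.ord jb)) :=
      sub_mem (mem_ordGe_of_le w (min_le_right _ _))
        (mem_ordGe_of_le w (by rw [FF.ord_algebraMap]; exact min_le_left _ _))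
    have := le_ord_of_mem_ordGe w hne this
    omega
  have h1 := le_redDiv_apply (gRed) hnn v
  rw [map_add, redDiv_div _ u (by rw [hu1]; exact neg_ne_zero.mpr one_ne_zero), hu1, hpoles,
    Finsupp.add_apply, Finsupp.add_apply, div_apply, div_apply, FF.ord_neg, Place.ord_one,
    poles_apply, poles_apply, hu2,
    v.ord_mul ((_root_.map_ne_zero _).mpr (inv_ne_zero hc0)) hne, FF.ord_algebraMap] at h1
  omega

theorem inv_sub_mem {c : A} :
    (jqModC QBar - algebraMap QBar _ (c : QBar))⁻¹ ∈ serInt A ∧
      (jqModC QBar - algebraMap QBar _ (c : QBar))⁻¹ ∈ orderNonneg QBar := by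
  set p : PowerSeries A := jNum.map (Int.castRingHom A) - PowerSeries.C c * PowerSeries.X with hp
  have hu : IsUnit p := by
    rw [PowerSeries.isUnit_iff_constantCoeff, hp, map_sub, map_mul, PowerSeries.constantCoeff_X,
      mul_zero, sub_zero, ← PowerSeries.coeff_zero_eq_constantCoeff, PowerSeries.coeff_map,
      PowerSeries.coeff_zero_eq_constantCoeff, constantCoeff_jNum, map_one]
    exact isUnit_one
  obtain ⟨r, hr⟩ := isUnit_iff_exists_inv.mp hu
  set t : LaurentSeries A := HahnSeries.ofPowerSeries ℤ A (PowerSeries.X * r) with ht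
  have hmul : (jqModC A - HahnSeries.single 0 c) * t = 1 := by
    have e : jqModC A - HahnSeries.single 0 c =
        HahnSeries.single (-1 : ℤ) 1 * HahnSeries.ofPowerSeries ℤ A p := by
      rw [hp, map_sub, map_mul, mul_sub, jqModC, HahnSeries.ofPowerSeries_C,
        HahnSeries.ofPowerSeries_X, mul_left_comm, HahnSeries.single_mul_single, neg_add_cancel,
        one_mul]
      simp
    rw [e, ht, map_mul, HahnSeries.ofPowerSeries_X, mul_comm (HahnSeries.single (1 : ℤ) (1 : A)),
      mul_assoc, ← mul_assoc (HahnSeries.ofPowerSeries ℤ A p), ← map_mul, hr,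
      map_one (HahnSeries.ofPowerSeries ℤ A), one_mul, HahnSeries.single_mul_single, neg_add_cancel,
      one_mul]
    rfl
  have hinv : (jqModC QBar - algebraMap QBar _ (c : QBar))⁻¹ = coeffMap A.subtype t := by
    refine inv_eq_of_mul_eq_one_right ?_
    have h1 := congrArg (coeffMap A.subtype) hmul
    rw [map_mul, map_sub, coeffMap_jqModC, map_one] at h1
    rw [← h1, algebraMap_laurentSeries_eq_single]
    congr 2
    ext n
    rw [coeffMap_coeff, HahnSeries.coeff_single, HahnSeries.coeff_single]
    split <;> simp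
  refine ⟨hinv ▸ ⟨t, rfl⟩, ?_⟩
  rw [hinv]
  intro n hn
  rw [coeffMap_coeff, ht, ofPowerSeries_coeff_of_neg _ hn, map_zero]

include hNA in
/-- Functions with poles among places of finite integral `j` have bounded expansions without
polar part. -/
theorem bdd_of_poles {q : ℕ} (hA : A.LiesOverPrime q) (hq : q.Prime)
    (T : Finset (Place QBar Fb))
    (hT : ∀ v ∈ T, 0 ≤ (redPlace (gRed) v).ord jk) {y : Fb}
    (hy : ∀ v, v ∉ T → y ∈ ordGe v 0) :
    (y : LaurentSeries QBar) ∈ serBdd A ∧ (y : LaurentSeries QBar) ∈ orderNonneg QBar := by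
  choose c hc hj using fun v : T => exists_value hNA (hT v v.2)
  -- `x = ∏ (j - c v)⁻¹` has poles at `T`, and `y` is regular where `x` is.
  set x : Fb := ∏ v : T, (jb - algebraMap QBar Fb (c v : QBar))⁻¹ with hx
  have hxs : ((x : Fb) : LaurentSeries QBar) =
      ∏ v : T, (jqModC QBar - algebraMap QBar _ (c v : QBar))⁻¹ := by
    rw [hx, IntermediateField.coe_prod]
    refine Finset.prod_congr rfl fun v _ => ?_
    rw [IntermediateField.coe_inv, AddSubgroupClass.coe_sub, coe_jF,
      IntermediateField.coe_algebraMap_apply]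
  have hreg : ∀ w : Place QBar Fb, x ∈ w.toValuationSubring → y ∈ w.toValuationSubring := by
    intro w hw
    refine (mem_ordGe_zero w).mp (hy w fun hwT => ?_)
    have hne : ∀ v : T, (jb - algebraMap QBar Fb (c v : QBar))⁻¹ ≠ 0 := fun v =>
      inv_ne_zero fun e => transcendental_jF (F := Fb) hFb
        (sub_eq_zero.mp e ▸ isAlgebraic_algebraMap _)
    have hle : ∀ v : T, w.ord (jb - algebraMap QBar Fb (c v : QBar))⁻¹ ≤ 0 := fun v => by
      rw [w.ord_inv]
      have h1 : jb - algebraMap QBar Fb (c v : QBar) ∈ ordGe w 0 :=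
        sub_mem (mem_ordGe_of_le w (hj ⟨w, hwT⟩))
          (mem_ordGe_of_le w (by rw [FF.ord_algebraMap]))
      have := le_ord_of_mem_ordGe w (fun e => hne v (by rw [e, inv_zero])) h1
      omega
    have hlt : w.ord (jb - algebraMap QBar Fb (c ⟨w, hwT⟩ : QBar))⁻¹ < 0 := by
      rw [w.ord_inv]
      have : 0 < w.ord (jb - algebraMap QBar Fb (c ⟨w, hwT⟩ : QBar)) := hc ⟨w, hwT⟩
      omega
    have hord : ∀ s : Finset T, w.ord (∏ v ∈ s, (jb - algebraMap QBar Fb (c v : QBar))⁻¹) =
        ∑ v ∈ s, w.ord (jb - algebraMap QBar Fb (c v : QBar))⁻¹ := fun s => by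
      induction s using Finset.induction with
      | empty => simp
      | insert a s ha ih =>
        rw [Finset.prod_insert ha, Finset.sum_insert ha,
          w.ord_mul (hne a) (Finset.prod_ne_zero_iff.mpr fun v _ => hne v), ih]
    have h2 := ord_nonneg w hw
    rw [hx, hord] at h2
    have h3 := Finset.sum_lt_sum (fun v _ => hle v) ⟨⟨w, hwT⟩, Finset.mem_univ _, hlt⟩
    simp only [Finset.sum_const_zero] at h3
    omega
  -- Its expansion is bounded without polar part, hence so is that of `y`.
  have h1 : ((x : Fb) : LaurentSeries QBar) ∈ serBdd A := by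
    rw [hxs]; exact prod_mem fun v _ => serInt_le_serBdd inv_sub_mem.1
  have h2 : ((x : Fb) : LaurentSeries QBar) ∈ orderNonneg QBar := by
    rw [hxs]; exact prod_mem fun v _ => inv_sub_mem.2
  exact ⟨mem_serBdd_of_regular hFb hA hq h1 hreg, mem_orderNonneg_of_regular h2 hreg⟩

end Fermat.Agent.FiniteFlat.Torsion

end
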