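import Fermat.Agent.RedTorsion.ReducedBasis
import Fermat.Agent.RedTorsion.TraceVal

/-!
# The places of `K(x)`, and clearing denominators away from a given place
-/

set_option autoImplicit false

noncomputable section

open scoped Classical
open AlgebraicCurve Polynomial IntermediateField

namespace Fermat.Agent.RedTorsion

open Fermat.Agent.FF

variable {K F : Type*} [Field K] [Field F] [Algebra K F] {x : F}

/-- `x` as an element of `K(x)`. -/
def gen (x : F) : K⟮x⟯ := IntermediateField.AdjoinSimple.gen K x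

@[simp] theorem coe_gen : ((gen x : K⟮x⟯) : F) = x := rfl

theorem coe_aeval_gen (p : K[X]) : ((aeval (gen x : K⟮x⟯) p : K⟮x⟯) : F) = aeval x p :=
  (Polynomial.aeval_algHom_apply K⟮x⟯.val (gen x) p).symm

theorem aeval_gen_eq (p : K[X]) : aeval (gen x : K⟮x⟯) p = aevalGen x p :=
  Subtype.ext (coe_aeval_gen p)

/-- The generator of `K(x)` is transcendental. -/
theorem transcendental_gen (hx : Transcendental K x) : Transcendental K (gen x : K⟮x⟯) := by
  rw [transcendental_iff] at hx ⊢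
  intro p hp
  exact hx p (by rw [← coe_aeval_gen, hp]; rfl)

/-- `K(x)` is a function field. -/
theorem isFunctionField_adjoin (hx : Transcendental K x) : IsFunctionField K K⟮x⟯ := by
  have htop : K⟮(gen x : K⟮x⟯)⟯ = ⊤ := by
    apply IntermediateField.map_injective K⟮x⟯.val
    rw [adjoin_map, Set.image_singleton]
    simp [gen, ← AlgHom.fieldRange_eq_map]
  have : FiniteDimensional K⟮(gen x : K⟮x⟯)⟯ K⟮x⟯ := by
    refine Module.Finite.of_surjective (Algebra.linearMap K⟮(gen x : K⟮x⟯)⟯ K⟮x⟯) fun g => ?_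
    exact ⟨⟨g, htop ▸ IntermediateField.mem_top⟩, rfl⟩
  exact isFunctionField_of_finite (transcendental_gen hx)

/-- An element of `K⟮x⟯` is a quotient of two polynomials in `x`. -/
theorem exists_eq_div (hx : Transcendental K x) (g : K⟮x⟯) :
    ∃ p q : K[X], q ≠ 0 ∧ g = aeval (gen x) p / aeval (gen x) q := by
  obtain ⟨Q, P, hQ, h⟩ := exists_common_den hx (fun _ : Unit => g)
  refine ⟨P (), Q, hQ, ?_⟩
  rw [eq_div_iff (aeval_ne_zero (transcendental_gen hx) hQ)]
  exact Subtype.ext (by rw [IntermediateField.coe_mul, coe_aeval_gen, coe_aeval_gen,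
    mul_comm, h ()])

/-- At a place where `x = a`, a polynomial in `x` has order its multiplicity at `a`. -/
theorem ord_aeval_of_zero {E : Type*} [Field E] [Algebra K E] (v : Place K E) {y : E} {a : K}
    (hy : y - algebraMap K E a ∈ ordGe v 1) (hy0 : y - algebraMap K E a ≠ 0) {p : K[X]}
    (hp : p ≠ 0) :
    aeval y p ≠ 0 ∧ v.ord (aeval y p) = p.rootMultiplicity a * v.ord (y - algebraMap K E a) := by
  obtain ⟨q, hq, hqa⟩ := p.exists_eq_pow_rootMultiplicity_mul_and_not_dvd hp a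
  obtain ⟨r, hr⟩ : (X - C a) ∣ q - C (q.eval a) := by
    rw [dvd_iff_isRoot]; simp
  have hqa0 : q.eval a ≠ 0 := fun h => hqa (dvd_iff_isRoot.mpr h)
  have hyv : y ∈ v.toValuationSubring := by
    rw [← mem_ordGe_zero]
    have h1 : algebraMap K E a ∈ ordGe v 0 := (mem_ordGe_zero v).mpr (v.algebraMap_mem' a)
    simpa using add_mem (ordGe_anti v zero_le_one hy) h1
  have hval : aeval y q = algebraMap K E (q.eval a) + (y - algebraMap K E a) * aeval y r := by
    have : q = C (q.eval a) + (X - C a) * r := by rw [← hr]; ring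
    conv_lhs => rw [this]
    simp
  have hne : algebraMap K E (q.eval a) ≠ 0 := by simpa using hqa0
  have hord : aeval y q ≠ 0 ∧ v.ord (aeval y q) = 0 := by
    have hmem : (y - algebraMap K E a) * aeval y r ∈ ordGe v 1 := by
      simpa using mul_mem_ordGe v hy ((mem_ordGe_zero v).mpr (aeval_mem_valuationSubring v hyv r))
    rw [hval, ← ord_algebraMap v (q.eval a)]
    refine ord_add_eq_left v hne ?_
    rcases eq_or_ne ((y - algebraMap K E a) * aeval y r) 0 with h | h
    · exact Or.inl h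
    · exact Or.inr (by rw [ord_algebraMap]; have := le_ord_of_mem_ordGe v h hmem; omega)
  have hp' : aeval y p = (y - algebraMap K E a) ^ p.rootMultiplicity a * aeval y q := by
    conv_lhs => rw [hq]
    simp
  refine ⟨hp' ▸ mul_ne_zero (pow_ne_zero _ hy0) hord.1, ?_⟩
  rw [hp', v.ord_mul (pow_ne_zero _ hy0) hord.1, ord_pow, hord.2, add_zero]

theorem gen_sub_ne_zero (hx : Transcendental K x) (a : K) :
    (gen x : K⟮x⟯) - algebraMap K K⟮x⟯ a ≠ 0 := fun h => by
  have := aeval_ne_zero (transcendental_gen hx) (X_sub_C_ne_zero a)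
  exact this (by simpa using h)

/-- The order at a place of `K(x)` where `x = a`. -/
theorem exists_ord_eq_mul_zero (hx : Transcendental K x) (a : K) {g : K⟮x⟯} (hg : g ≠ 0) :
    ∃ k : ℤ, ∀ Q : Place K K⟮x⟯, gen x - algebraMap K K⟮x⟯ a ∈ ordGe Q 1 →
      Q.ord g = k * Q.ord (gen x - algebraMap K K⟮x⟯ a) := by
  obtain ⟨p, q, hq, rfl⟩ := exists_eq_div hx g
  have hp : p ≠ 0 := by rintro rfl; simp at hg
  refine ⟨(p.rootMultiplicity a : ℤ) - q.rootMultiplicity a, fun Q hQ => ?_⟩
  obtain ⟨h1, h2⟩ := ord_aeval_of_zero Q hQ (gen_sub_ne_zero hx a) hp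
  obtain ⟨h3, h4⟩ := ord_aeval_of_zero Q hQ (gen_sub_ne_zero hx a) hq
  rw [ord_div Q h1 h3, h2, h4]
  ring

/-- The order at a place of `K(x)` at infinity. -/
theorem exists_ord_eq_mul_pole (hx : Transcendental K x) {g : K⟮x⟯} (hg : g ≠ 0) :
    ∃ k : ℤ, ∀ Q : Place K K⟮x⟯, Q.ord (gen x : K⟮x⟯) < 0 → Q.ord g = k * Q.ord (gen x : K⟮x⟯) := by
  obtain ⟨p, q, hq, rfl⟩ := exists_eq_div hx g
  have hp : p ≠ 0 := by rintro rfl; simp at hg
  refine ⟨(p.natDegree : ℤ) - q.natDegree, fun Q hQ => ?_⟩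
  obtain ⟨h1, h2⟩ := ord_aeval_of_pole Q hQ p hp
  obtain ⟨h3, h4⟩ := ord_aeval_of_pole Q hQ q hq
  rw [ord_div Q h1 h3, h2, h4]
  ring

theorem ord_gen_sub_eq_one (hx : Transcendental K x) {a : K} (Q : Place K K⟮x⟯)
    (hQ : gen x - algebraMap K K⟮x⟯ a ∈ ordGe Q 1) :
    Q.ord (gen x - algebraMap K K⟮x⟯ a) = 1 := by
  obtain ⟨t, ht, ht1⟩ := exists_ord_eq Q 1
  obtain ⟨k, hk⟩ := exists_ord_eq_mul_zero hx a ht
  have h1 := le_ord_of_mem_ordGe Q (gen_sub_ne_zero hx a) hQ
  have h2 := hk Q hQ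
  rw [ht1] at h2
  exact Int.eq_one_of_dvd_one (by omega) ⟨k, by rw [mul_comm]; exact h2⟩

theorem ord_gen_of_pole (hx : Transcendental K x) (Q : Place K K⟮x⟯)
    (hQ : Q.ord (gen x : K⟮x⟯) < 0) : Q.ord (gen x : K⟮x⟯) = -1 := by
  obtain ⟨t, ht, ht1⟩ := exists_ord_eq Q 1
  obtain ⟨k, hk⟩ := exists_ord_eq_mul_pole hx ht
  have h2 := hk Q hQ
  rw [ht1] at h2
  have := Int.eq_one_of_dvd_one (a := -Q.ord (gen x : K⟮x⟯)) (by omega) ⟨-k, by rw [h2]; ring⟩
  omega

theorem place_eq_of_zero (hx : Transcendental K x) {a : K} {Q Q' : Place K K⟮x⟯}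
    (hQ : gen x - algebraMap K K⟮x⟯ a ∈ ordGe Q 1)
    (hQ' : gen x - algebraMap K K⟮x⟯ a ∈ ordGe Q' 1) : Q = Q' := by
  refine Place.ext (SetLike.ext fun g => ?_)
  rcases eq_or_ne g 0 with rfl | hg
  · simp [zero_mem]
  obtain ⟨k, hk⟩ := exists_ord_eq_mul_zero hx a hg
  rw [mem_iff_ord Q hg, mem_iff_ord Q' hg, hk Q hQ, hk Q' hQ', ord_gen_sub_eq_one hx Q hQ,
    ord_gen_sub_eq_one hx Q' hQ']

/-- The projective line has one place at which `x` has a pole. -/
theorem place_eq_of_pole (hx : Transcendental K x) {Q Q' : Place K K⟮x⟯}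
    (hQ : Q.ord (gen x : K⟮x⟯) < 0) (hQ' : Q'.ord (gen x : K⟮x⟯) < 0) : Q = Q' := by
  refine Place.ext (SetLike.ext fun g => ?_)
  rcases eq_or_ne g 0 with rfl | hg
  · simp [zero_mem]
  obtain ⟨k, hk⟩ := exists_ord_eq_mul_pole hx hg
  rw [mem_iff_ord Q hg, mem_iff_ord Q' hg, hk Q hQ, hk Q' hQ', ord_gen_of_pole hx Q hQ,
    ord_gen_of_pole hx Q' hQ']

variable [FiniteDimensional K⟮x⟯ F]

/-- The place of `K(x)` below a place of `F`. -/
abbrev below (x : F) [FiniteDimensional K⟮x⟯ F] (P : Place K F) : Place K K⟮x⟯ :=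
  P.restrict K⟮x⟯

theorem ord_coe (P : Place K F) (g : K⟮x⟯) :
    P.ord (g : F) = P.ramificationIndex K⟮x⟯ * (below x P).ord g :=
  P.ord_restrict g

/-- Ramification indices over `K(x)` are positive. -/
theorem ram_pos (P : Place K F) : (0 : ℤ) < P.ramificationIndex K⟮x⟯ := by
  exact_mod_cast P.ramificationIndex_pos (F := K⟮x⟯)

/-- `x` is regular at a place of `F` iff it is at the place below on `K⟮x⟯`. -/
theorem ord_below_gen_nonneg_iff (P : Place K F) :
    0 ≤ (below x P).ord (gen x : K⟮x⟯) ↔ 0 ≤ P.ord x := by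
  have h := ord_coe P (gen x : K⟮x⟯)
  rw [coe_gen] at h
  rw [h]
  exact ⟨fun h' => mul_nonneg (ram_pos P).le h', fun h' => by
    by_contra h''
    nlinarith [ram_pos (x := x) P]⟩

/-- The ramification index at a pole of `x` is the pole order. -/
theorem ram_of_pole [IsFunctionField K F] (hx : Transcendental K x) (P : Place K F)
    (hP : P.ord x < 0) :
    (P.ramificationIndex K⟮x⟯ : ℤ) = poles K x P := by
  have h := ord_coe P (gen x : K⟮x⟯)
  have hQ : (below x P).ord (gen x : K⟮x⟯) < 0 := by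
    by_contra h'
    exact absurd ((ord_below_gen_nonneg_iff (x := x) P).mp (by omega)) (by omega)
  rw [coe_gen, ord_gen_of_pole hx _ hQ] at h
  rw [poles_apply]
  omega

theorem gen_sub_mem_below_iff (hx : Transcendental K x) (P : Place K F) (a : K) :
    gen x - algebraMap K K⟮x⟯ a ∈ ordGe (below x P) 1 ↔ x - algebraMap K F a ∈ ordGe P 1 := by
  have h := ord_coe P (gen x - algebraMap K K⟮x⟯ a)
  have h0 : x - algebraMap K F a ≠ 0 := fun h0 =>
    aeval_ne_zero hx (X_sub_C_ne_zero a) (by simpa using h0)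
  have hcoe : ((gen x - algebraMap K K⟮x⟯ a : K⟮x⟯) : F) = x - algebraMap K F a := by simp [gen]
  rw [hcoe] at h
  constructor
  · intro h1
    have := le_ord_of_mem_ordGe _ (gen_sub_ne_zero hx a) h1
    refine mem_ordGe_of_le P ?_
    nlinarith [ram_pos (x := x) P]
  · intro h1
    have := le_ord_of_mem_ordGe _ h0 h1
    refine mem_ordGe_of_le _ ?_
    by_contra h''
    nlinarith [ram_pos (x := x) P]

/-- The ramification index at a zero of `x - a` is the order of vanishing. -/
theorem ram_of_zero (hx : Transcendental K x) (P : Place K F) {a : K}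
    (hP : x - algebraMap K F a ∈ ordGe P 1) :
    (P.ramificationIndex K⟮x⟯ : ℤ) = P.ord (x - algebraMap K F a) := by
  have h := ord_coe P (gen x - algebraMap K K⟮x⟯ a)
  rw [ord_gen_sub_eq_one hx _ ((gen_sub_mem_below_iff hx P a).mpr hP), mul_one] at h
  rw [← h]
  simp [gen]

variable [IsAlgClosed K]

omit [FiniteDimensional (↥K⟮x⟯) F] in
theorem exists_value [IsFunctionField K F] (P : Place K F) (hP : 0 ≤ P.ord x) :
    ∃ a : K, x - algebraMap K F a ∈ ordGe P 1 :=
  exists_sub_mem_ordGe_one P (mem_ordGe_of_le P hP)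

/-- Clear the denominators of a function regular over a finite place by a polynomial not
vanishing there. -/
theorem exists_clear_at [IsFunctionField K F] (hx : Transcendental K x) {a : K} (Q : Place K K⟮x⟯)
    (hQ : gen x - algebraMap K K⟮x⟯ a ∈ ordGe Q 1) {f : F}
    (hf : ∀ P : Place K F, below x P = Q → f ∈ ordGe P 0) :
    ∃ p : K[X], p.eval a ≠ 0 ∧ ∀ v : Place K F, 0 ≤ v.ord x → aeval x p * f ∈ ordGe v 0 := by
  set S := (finite_poles (K := K) f).toFinset.filter fun v => 0 ≤ v.ord x with hS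
  have hval : ∀ v : S, ∃ c : K, x - algebraMap K F c ∈ ordGe (v : Place K F) 1 := fun v =>
    exists_value _ (Finset.mem_filter.mp v.2).2
  choose c hc using hval
  refine ⟨∏ v : S, (X - C (c v)) ^ ((v : Place K F).ord f).natAbs, ?_, fun v hv => ?_⟩
  · rw [eval_prod, Finset.prod_ne_zero_iff]
    intro v _
    rw [eval_pow]
    refine pow_ne_zero _ ?_
    simp only [eval_sub, eval_X, eval_C, ne_eq, sub_eq_zero]
    rintro rfl
    have hv := (Finset.mem_filter.mp v.2).1
    rw [Set.Finite.mem_toFinset] at hv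
    have h1 := hf (v : Place K F) (place_eq_of_zero hx
      ((gen_sub_mem_below_iff hx _ _).mpr (hc v)) hQ)
    have hf0 : f ≠ 0 := by rintro rfl; simp at hv
    have := le_ord_of_mem_ordGe _ hf0 h1
    simp only [Set.mem_ofPred_eq] at hv
    omega
  · rw [mem_ordGe_zero]
    have hxv : x ∈ v.toValuationSubring := (mem_iff v).mpr (Or.inr hv)
    by_cases hbad : v.ord f < 0
    · have hvS : v ∈ S := Finset.mem_filter.mpr ⟨(Set.Finite.mem_toFinset _).mpr hbad, hv⟩
      rw [← Finset.prod_erase_mul _ _ (Finset.mem_univ (⟨v, hvS⟩ : S)), map_mul, mul_assoc,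
        map_pow]
      refine mul_mem (aeval_mem_valuationSubring v hxv _) ?_
      rw [← mem_ordGe_zero]
      have h1 := mul_mem_ordGe v (pow_mem_ordGe v (hc ⟨v, hvS⟩) (v.ord f).natAbs)
        (mem_ordGe_of_le v (le_refl (v.ord f)))
      simp only [map_sub, aeval_X, aeval_C]
      exact ordGe_anti v (by simp only [mul_one]; omega) h1
    · exact mul_mem (aeval_mem_valuationSubring v hxv _) ((mem_iff v).mpr (Or.inr (by omega)))

omit [FiniteDimensional (↥K⟮x⟯) F] [IsAlgClosed K] in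
/-- Clear the denominators of a function regular at infinity, keeping its pole order bounded. -/
theorem exists_clear_top [IsFunctionField K F] (hx : Transcendental K x) {f : F}
    (hf : ∀ P : Place K F, P.ord x < 0 → f ∈ ordGe P 0) :
    ∃ p : K[X], p ≠ 0 ∧ aeval x p * f ∈ riemannRochSpace (p.natDegree • poles K x) := by
  obtain ⟨p, hp, h⟩ := exists_clear hx f
  refine ⟨p, hp, mem_polesSpace.mpr fun v => ?_⟩
  by_cases hv : 0 ≤ v.ord x
  · exact ordGe_anti v (by simp [poles_apply, hv]) (h v hv)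
  · refine ordGe_anti v ?_ (mul_mem_ordGe v (aeval_mem_ordGe v x (p := p) le_rfl) (hf v (by omega)))
    simp

end Fermat.Agent.RedTorsion

end
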