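import Fermat.Agent.FiniteFlat.Reduction

/-!
# Moving divisors under good reduction

A divisor whose reduction is principal is linearly equivalent to one whose reduction vanishes and
whose support reduces away from any given finite set of places.
-/

set_option autoImplicit false

noncomputable section

open IsLocalRing AlgebraicCurve
open Fermat.Agent.Arith Fermat.Agent.FF Fermat.Agent.FiniteFlat
open scoped Classical

namespace Fermat.Agent.RedTorsion

variable {A : ValuationSubring QBar} {F : Type*} [Field F] [Algebra QBar F]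
  {Fk : Type*} [Field Fk] [Algebra (ResidueField A) Fk]
  [IsFunctionField QBar F] [IsFunctionField (ResidueField A) Fk]
  (h : GoodRed A F Fk)

/-- A nonnegative multiple of a place is an effective divisor. -/
theorem single_nonneg {K E : Type*} [Field K] [Field E] [Algebra K E] (v : Place K E) {n : ℤ}
    (hn : 0 ≤ n) : (0 : Divisor K E) ≤ Finsupp.single v n :=
  Finsupp.le_def.mpr fun w => by
    rcases eq_or_ne w v with rfl | hw
    · rw [Finsupp.single_eq_same, Finsupp.coe_zero, Pi.zero_apply]; exact hn
    · rw [Finsupp.single_eq_of_ne hw, Finsupp.coe_zero, Pi.zero_apply]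

/-- An effective divisor reduces to at least as much at the reduction of a place. -/
theorem le_redDiv_apply {D : Divisor QBar F} (hD : 0 ≤ D) (v : Place QBar F) :
    D v ≤ redDiv h D (redPlace h v) := by
  have hle : Finsupp.single v (D v) ≤ D := Finsupp.le_def.mpr fun w => by
    rcases eq_or_ne w v with rfl | hw
    · rw [Finsupp.single_eq_same]
    · rw [Finsupp.single_eq_of_ne hw]
      simpa using Finsupp.le_def.mp hD w
  have h1 := redDiv_nonneg h (sub_nonneg.mpr hle)
  rw [map_sub, redDiv_single] at h1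
  have h2 := Finsupp.le_def.mp h1 (redPlace h v)
  rw [Finsupp.coe_zero, Pi.zero_apply, Finsupp.sub_apply, Finsupp.single_eq_same] at h2
  omega

/-- Reduction of the poles of a function whose degree does not drop. -/
theorem redDiv_poles (g : h.S) (hg : redF h.toRedLattice g ≠ 0)
    (hdeg : Divisor.degree (poles QBar (g : F)) =
      Divisor.degree (poles (ResidueField A) (redF h.toRedLattice g))) :
    redDiv h (poles QBar (g : F)) = poles (ResidueField A) (redF h.toRedLattice g) := by
  refine (eq_of_le_of_degree_le (Finsupp.le_def.mpr fun w => ?_)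
    (by rw [degree_redDiv, hdeg])).symm
  have h1 : 0 ≤ div QBar (g : F) + poles QBar (g : F) := Finsupp.le_def.mpr fun v => by
    rw [Finsupp.coe_zero, Pi.zero_apply, Finsupp.add_apply, div_apply, poles_apply]; omega
  have h2 := Finsupp.le_def.mp (redDiv_nonneg h h1) w
  rw [map_add, redDiv_div h g hg] at h2
  have h3 := Finsupp.le_def.mp (redDiv_nonneg h (poles_nonneg (K := QBar) (g : F))) w
  rw [Finsupp.coe_zero, Pi.zero_apply] at h2 h3
  rw [Finsupp.add_apply, div_apply] at h2
  rw [poles_apply]
  omega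

/-- A zero of a function reduces to a zero of its reduction, if the degree does not drop. -/
theorem ord_redPlace_pos (g : h.S) (hg : redF h.toRedLattice g ≠ 0)
    (hdeg : Divisor.degree (poles QBar (g : F)) =
      Divisor.degree (poles (ResidueField A) (redF h.toRedLattice g)))
    {v : Place QBar F} (hv : 0 < v.ord (g : F)) :
    0 < (redPlace h v).ord (redF h.toRedLattice g) := by
  have h1 : 0 ≤ div QBar (g : F) + poles QBar (g : F) := Finsupp.le_def.mpr fun v => by
    rw [Finsupp.coe_zero, Pi.zero_apply, Finsupp.add_apply, div_apply, poles_apply]; omega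
  have h2 := le_redDiv_apply h h1 v
  rw [map_add, redDiv_div h g hg, redDiv_poles h g hg hdeg] at h2
  rw [Finsupp.add_apply, Finsupp.add_apply, div_apply, div_apply, poles_apply, poles_apply] at h2
  omega

include h in
/-- An effective divisor with given reduction `R` moves by a function with prescribed reduction. -/
theorem exists_lift_of_mem {P : Divisor QBar F}
    (hdeg : bigDeg h ≤ Divisor.degree P) {g : Fk}
    (hg : g ∈ riemannRochSpace (redDiv h P)) (hg0 : g ≠ 0) :
    ∃ f : F, f ≠ 0 ∧ 0 ≤ P + div QBar f ∧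
      redDiv h (P + div QBar f) = redDiv h P + div (ResidueField A) g := by
  rw [← redW_riemannRochSpace h hdeg] at hg
  obtain ⟨f, hf, hfg⟩ := hg
  have hr : redF h.toRedLattice f ≠ 0 := by rw [hfg]; exact hg0
  have hf0 : (f : F) ≠ 0 := fun e => hr (by rw [show f = 0 from Subtype.ext e, map_zero])
  refine ⟨f, hf0, Finsupp.le_def.mpr fun v => ?_, ?_⟩
  · have := le_ord_of_mem_ordGe v hf0 (mem_riemannRochSpace'.mp hf v)
    rw [Finsupp.coe_zero, Pi.zero_apply, Finsupp.add_apply, div_apply]
    omega
  · rw [map_add, redDiv_div h f hr, hfg]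

include h in
/-- The moving lemma. -/
theorem exists_moved {D : Divisor QBar F} {g₀ : Fk} (hg₀ : g₀ ≠ 0)
    (hD : redDiv h D = div (ResidueField A) g₀) (Sg : Finset (Place (ResidueField A) Fk)) :
    ∃ D' : Divisor QBar F, D - D' ∈ Divisor.principal (K := QBar) (F := F) ∧
      redDiv h D' = 0 ∧ ∀ v, D' v ≠ 0 → redPlace h v ∉ Sg := by
  -- Subtract the divisor of a lift of `g₀`, leaving `D₁ = P₁ - Q₁` with both of large degree.
  obtain ⟨g, hg⟩ := h.surj g₀
  have hg' : redF h.toRedLattice g ≠ 0 := by show h.rho g ≠ 0; rw [hg]; exact hg₀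
  have hgF : (g : F) ≠ 0 := fun e => hg' (by rw [show g = 0 from Subtype.ext e, map_zero])
  set D₁ := D - div QBar (g : F) with hD₁
  have hD₁0 : redDiv h D₁ = 0 := by
    rw [hD₁, map_sub, redDiv_div h g hg', hD, show redF h.toRedLattice g = g₀ from hg, sub_self]
  set P₁ := D₁⁺ + aux h with hP₁
  set Q₁ := D₁⁻ + aux h with hQ₁
  have hPQ : P₁ - Q₁ = D₁ := by rw [hP₁, hQ₁, add_sub_add_right_eq_sub, posPart_sub_negPart]
  have hred : redDiv h Q₁ = redDiv h P₁ := by
    rw [← sub_eq_zero, ← map_sub, ← neg_sub, hPQ, map_neg, hD₁0, neg_zero]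
  have hdP : bigDeg h ≤ Divisor.degree P₁ := by
    rw [hP₁, map_add, degree_aux]
    exact le_add_of_nonneg_left (degree_nonneg (posPart_nonneg _))
  have hdQ : bigDeg h ≤ Divisor.degree Q₁ := by
    rw [hQ₁, map_add, degree_aux]
    exact le_add_of_nonneg_left (degree_nonneg (negPart_nonneg _))
  obtain ⟨v₀⟩ := FF.exists_place (K := ResidueField A) (F := Fk)
  have hb := three_le_bigDeg h
  have hT := one_le_rrBound h
  -- A section of the reduced `P₁` of exact order at `Sg`.
  obtain ⟨gb, hgb, hgbn⟩ := exists_exact (riemannRochSpace (redDiv h P₁)) (insert v₀ Sg)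
    (fun v => -redDiv h P₁ v + 1) fun v _ =>
      exists_notMem_ordGe (fun _ => ell_eq_of_rrBound_le' h) (by rw [degree_redDiv]; omega) v
  have hgb0 : gb ≠ 0 := fun e => hgbn v₀ (Finset.mem_insert_self _ _) (e ▸ zero_mem _)
  -- Lift it to both: the new divisors reduce alike, to one avoiding `Sg`.
  obtain ⟨f₁, hf₁, hP₂, hP₂r⟩ := exists_lift_of_mem h hdP hgb hgb0
  obtain ⟨f₂, hf₂, hQ₂, hQ₂r⟩ := exists_lift_of_mem h hdQ (hred.symm ▸ hgb) hgb0
  rw [hred] at hQ₂r
  refine ⟨(P₁ + div QBar f₁) - (Q₁ + div QBar f₂), ?_, ?_, fun v hv hvS => ?_⟩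
  · have e : D - ((P₁ + div QBar f₁) - (Q₁ + div QBar f₂)) =
        div QBar (g : F) - div QBar f₁ + div QBar f₂ := by
      rw [eq_add_of_sub_eq hPQ, hD₁]; abel
    rw [e]
    exact add_mem (sub_mem (FF.div_mem_principal hgF) (FF.div_mem_principal hf₁))
      (FF.div_mem_principal hf₂)
  · rw [map_sub, hP₂r, hQ₂r, sub_self]
  · have hzero : (redDiv h P₁ + div (ResidueField A) gb) (redPlace h v) = 0 := by
      have h1 := le_ord_of_mem_ordGe (redPlace h v) hgb0 (mem_riemannRochSpace'.mp hgb _)
      have h2 : (redPlace h v).ord gb < -redDiv h P₁ (redPlace h v) + 1 :=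
        not_le.mp fun e => hgbn _ (Finset.mem_insert_of_mem hvS) (mem_ordGe_of_le _ e)
      rw [Finsupp.add_apply, div_apply]
      omega
    have a1 := le_redDiv_apply h hP₂ v
    have a2 := le_redDiv_apply h hQ₂ v
    rw [hP₂r, hzero] at a1
    rw [hQ₂r, hzero] at a2
    have b1 := Finsupp.le_def.mp hP₂ v
    have b2 := Finsupp.le_def.mp hQ₂ v
    rw [Finsupp.coe_zero, Pi.zero_apply] at b1 b2
    rw [Finsupp.sub_apply] at hv
    omega

end Fermat.Agent.RedTorsion

end
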